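import Mathlib
import Fermat.Agent.GH.S32.IsSubquot

set_option autoImplicit false

/-!
# CELL-S / ALG : transfer of (CE) along `IsSubquotPow`

`HasCE I act W` : the subgroup `W ≤ M` has no `I`-trivial subquotient, in the (CE) form used by
`GS/Old/OrdLevels.exists_line_of_levels`: for every `I`-stable subgroup `N ≤ M` and every `w ∈ W`,
`(g - 1) w ∈ N` for all `g ∈ I` implies `w ∈ N`.

* `hasCE_iff_noTrivSubquot` : equivalence with "no `I`-stable `Y₂ ≤ Y₁ ≤ W` with `I` acting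
  trivially on `Y₁/Y₂` unless `Y₁ = Y₂`" (for `I`-stable `W`, additive action);
* `HasCE.pi` : (CE) passes to finite powers;
* `hasCE_closure_of_isSubquotPow` : if `(M', act')` is an equivariant subquotient of a finite power
  of `(M, act)` (helper47's `IsSubquotPow`), `M₀ ≤ M` is `I`-stable with `(g - 1) M ⊂ M₀` for
  `g ∈ I` and (CE), then the augmentation subgroup `⟨(g - 1) u'⟩ ≤ M'` has (CE).

Pure group theory: Mathlib + `GH/S32/IsSubquot` only.
-/

namespace Fermat.Agent.GS.Old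

open Fermat.Agent.GH.S32

variable {G : Type*} {M M' : Type*} [AddCommGroup M] [AddCommGroup M']

/-- (CE) for a subgroup `W` of `M` with respect to the operators `act g`, `g ∈ I`. -/
def HasCE (I : Set G) (act : G → M → M) (W : AddSubgroup M) : Prop :=
  ∀ N : AddSubgroup M, (∀ g ∈ I, ∀ u ∈ N, act g u ∈ N) →
    ∀ w ∈ W, (∀ g ∈ I, act g w - w ∈ N) → w ∈ N

/-- The augmentation subgroup `⟨act g u - u : g ∈ I⟩`. -/
def augSubgroup (I : Set G) (act : G → M → M) : AddSubgroup M :=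
  AddSubgroup.closure {u | ∃ g ∈ I, ∃ u' : M, u = act g u' - u'}

theorem act_zero_of_add {act : G → M → M} {g : G}
    (hadd : ∀ x y, act g (x + y) = act g x + act g y) : act g 0 = 0 := by
  have := hadd 0 0
  rw [add_zero] at this
  exact left_eq_add.mp this

theorem act_neg_of_add {act : G → M → M} {g : G}
    (hadd : ∀ x y, act g (x + y) = act g x + act g y) (x : M) : act g (-x) = -act g x := by
  have := hadd x (-x)
  rw [add_neg_cancel, act_zero_of_add hadd] at this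
  exact (neg_eq_of_add_eq_zero_right this.symm).symm

theorem act_sub_of_add {act : G → M → M} {g : G}
    (hadd : ∀ x y, act g (x + y) = act g x + act g y) (x y : M) :
    act g (x - y) = act g x - act g y := by
  rw [sub_eq_add_neg, hadd, act_neg_of_add hadd, ← sub_eq_add_neg]

/-- (CE) is the absence of `I`-trivial subquotients. -/
theorem hasCE_iff_noTrivSubquot {I : Set G} {act : G → M → M} {W : AddSubgroup M}
    (hadd : ∀ g ∈ I, ∀ x y, act g (x + y) = act g x + act g y)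
    (hst : ∀ g ∈ I, ∀ x ∈ W, act g x ∈ W) :
    HasCE I act W ↔ ∀ Y₁ Y₂ : AddSubgroup M, Y₂ ≤ Y₁ → Y₁ ≤ W →
      (∀ g ∈ I, ∀ u ∈ Y₂, act g u ∈ Y₂) → (∀ g ∈ I, ∀ y ∈ Y₁, act g y - y ∈ Y₂) → Y₁ ≤ Y₂ := by
  constructor
  · intro h Y₁ Y₂ _ h1W hY₂ htriv y hy
    exact h Y₂ hY₂ y (h1W hy) fun g hg => htriv g hg y hy
  · intro h N hN w hw hwN
    have hY₂st : ∀ g ∈ I, ∀ u ∈ N ⊓ W, act g u ∈ N ⊓ W := fun g hg u hu =>
      ⟨hN g hg u hu.1, hst g hg u hu.2⟩
    have hwmem : ∀ g ∈ I, act g w - w ∈ N ⊓ W := fun g hg =>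
      ⟨hwN g hg, W.sub_mem (hst g hg w hw) hw⟩
    have key := h ((N ⊓ W) ⊔ AddSubgroup.zmultiples w) (N ⊓ W) le_sup_left
      (sup_le inf_le_right (by rw [AddSubgroup.zmultiples_le]; exact hw)) hY₂st ?_
    · exact (key (AddSubgroup.mem_sup_right (AddSubgroup.mem_zmultiples w))).1
    · intro g hg y hy
      obtain ⟨a, ha, b, hb, rfl⟩ := AddSubgroup.mem_sup.1 hy
      obtain ⟨k, rfl⟩ := AddSubgroup.mem_zmultiples_iff.1 hb
      have hk : act g (k • w) - k • w = k • (act g w - w) := by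
        have hmap : ∀ k : ℤ, act g (k • w) = k • act g w := by
          intro k
          exact map_zsmul (AddMonoidHom.mk' (act g) (hadd g hg)) k w
        rw [hmap, smul_sub]
      have : act g (a + k • w) - (a + k • w) = (act g a - a) + (act g (k • w) - k • w) := by
        rw [hadd g hg]; abel
      rw [this, hk]
      exact (N ⊓ W).add_mem ((N ⊓ W).sub_mem (hY₂st g hg a ha) ha)
        ((N ⊓ W).zsmul_mem (hwmem g hg) k)

/-- (CE) passes to finite powers. -/
theorem HasCE.pi {I : Set G} {act : G → M → M} {W : AddSubgroup M}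
    (hadd : ∀ g ∈ I, ∀ x y, act g (x + y) = act g x + act g y)
    (hst : ∀ g ∈ I, ∀ x ∈ W, act g x ∈ W) (h : HasCE I act W) (ι : Type*) [Fintype ι] :
    HasCE I (fun g (x : ι → M) i => act g (x i)) (AddSubgroup.pi Set.univ fun _ => W) := by
  classical
  intro Ñ hÑ w hw hwÑ
  have key : ∀ S : Finset ι, ∀ w : ι → M, (∀ i, w i ∈ W) → (∀ i ∉ S, w i = 0) →
      (∀ g ∈ I, (fun i => act g (w i)) - w ∈ Ñ) → w ∈ Ñ := by
    intro S
    induction S using Finset.induction_on with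
    | empty =>
      intro w _ h0 _
      have : w = 0 := funext fun i => h0 i (Finset.notMem_empty i)
      rw [this]
      exact Ñ.zero_mem
    | insert i S hi ih =>
      intro w hwW h0 hwÑ
      -- the subgroup of `Ñ` of vectors in `W ^ ι` supported in `insert i S`
      let Ñc : AddSubgroup (ι → M) :=
        { carrier := {x | x ∈ Ñ ∧ (∀ j, x j ∈ W) ∧ ∀ j ∉ insert i S, x j = 0}
          zero_mem' := ⟨Ñ.zero_mem, fun _ => W.zero_mem, fun _ _ => rfl⟩
          add_mem' := by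
            rintro x y ⟨hx1, hx2, hx3⟩ ⟨hy1, hy2, hy3⟩
            refine ⟨Ñ.add_mem hx1 hy1, fun j => W.add_mem (hx2 j) (hy2 j), fun j hj => ?_⟩
            rw [Pi.add_apply, hx3 j hj, hy3 j hj, add_zero]
          neg_mem' := by
            rintro x ⟨hx1, hx2, hx3⟩
            refine ⟨Ñ.neg_mem hx1, fun j => W.neg_mem (hx2 j), fun j hj => ?_⟩
            rw [Pi.neg_apply, hx3 j hj, neg_zero] }
      have hÑcst : ∀ g ∈ I, ∀ x ∈ Ñc, (fun j => act g (x j)) ∈ Ñc := by
        rintro g hg x ⟨hx1, hx2, hx3⟩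
        refine ⟨hÑ g hg x hx1, fun j => hst g hg _ (hx2 j), fun j hj => ?_⟩
        show act g (x j) = 0
        rw [hx3 j hj, act_zero_of_add (hadd g hg)]
      have hwÑc : ∀ g ∈ I, (fun j => act g (w j)) - w ∈ Ñc := by
        intro g hg
        refine ⟨hwÑ g hg, fun j => W.sub_mem (hst g hg _ (hwW j)) (hwW j), fun j hj => ?_⟩
        show act g (w j) - w j = 0
        rw [h0 j hj, act_zero_of_add (hadd g hg), sub_zero]
      -- the `i`-th projection
      let Ni : AddSubgroup M := Ñc.map (Pi.evalAddMonoidHom (fun _ => M) i)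
      have hNist : ∀ g ∈ I, ∀ u ∈ Ni, act g u ∈ Ni := by
        rintro g hg _ ⟨x, hx, rfl⟩
        exact ⟨fun j => act g (x j), hÑcst g hg x hx, rfl⟩
      have hwi : w i ∈ Ni := by
        refine h Ni hNist (w i) (hwW i) fun g hg => ?_
        exact ⟨(fun j => act g (w j)) - w, hwÑc g hg, rfl⟩
      obtain ⟨ñ, ⟨hñ1, hñ2, hñ3⟩, hñi⟩ := hwi
      have hñi' : ñ i = w i := hñi
      -- subtract
      have hsub : w - ñ ∈ Ñ := by
        refine ih (w - ñ) (fun j => W.sub_mem (hwW j) (hñ2 j)) (fun j hj => ?_) (fun g hg => ?_)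
        · by_cases hji : j = i
          · subst hji
            rw [Pi.sub_apply, hñi', sub_self]
          · have hj' : j ∉ insert i S := by
              rw [Finset.mem_insert, not_or]
              exact ⟨hji, hj⟩
            rw [Pi.sub_apply, h0 j hj', hñ3 j hj', sub_zero]
        · have : (fun j => act g ((w - ñ) j)) - (w - ñ) =
              ((fun j => act g (w j)) - w) - ((fun j => act g (ñ j)) - ñ) := by
            funext j
            simp only [Pi.sub_apply]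
            rw [act_sub_of_add (hadd g hg)]
            abel
          rw [this]
          exact Ñ.sub_mem (hwÑ g hg) (Ñ.sub_mem (hÑ g hg ñ hñ1) hñ1)
      have : w = (w - ñ) + ñ := by abel
      rw [this]
      exact Ñ.add_mem hsub hñ1
  refine key Finset.univ w (fun i => ?_) (fun i hi => absurd (Finset.mem_univ i) hi) hwÑ
  exact (AddSubgroup.mem_pi Set.univ).1 hw i (Set.mem_univ i)

/-- **Transfer of (CE) along `IsSubquotPow`.** -/
theorem hasCE_augSubgroup_of_isSubquotPow {I : Set G} {act : G → M → M} {act' : G → M' → M'}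
    (hsq : IsSubquotPow act act')
    (hadd : ∀ g ∈ I, ∀ x y, act g (x + y) = act g x + act g y)
    (M₀ : AddSubgroup M) (hst : ∀ g ∈ I, ∀ x ∈ M₀, act g x ∈ M₀)
    (hU : ∀ g ∈ I, ∀ x : M, act g x - x ∈ M₀) (hCE : HasCE I act M₀) :
    HasCE I act' (augSubgroup I act') := by
  obtain ⟨r, X₁, f, hf, hst₁, heq⟩ := hsq
  have hpi := hCE.pi hadd hst (Fin r)
  intro N' hN' w' hw' hw'N'
  -- Step A: lift `w'` to `X₁ ∩ (M₀)^r`
  have hA : ∀ w' ∈ augSubgroup I act', ∃ w : X₁, (∀ i, w.1 i ∈ M₀) ∧ f w = w' := by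
    intro w' hw'
    unfold augSubgroup at hw'
    induction hw' using AddSubgroup.closure_induction with
    | mem u hu =>
      obtain ⟨g, hg, u', rfl⟩ := hu
      obtain ⟨x, rfl⟩ := hf u'
      refine ⟨⟨fun i => act g (x.1 i), hst₁ g x.1 x.2⟩ - x, fun i => ?_, ?_⟩
      · exact hU g hg (x.1 i)
      · rw [map_sub, heq]
    | zero => exact ⟨0, fun i => M₀.zero_mem, map_zero f⟩
    | add a b _ _ ha hb =>
      obtain ⟨wa, hwa, rfl⟩ := ha
      obtain ⟨wb, hwb, rfl⟩ := hb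
      exact ⟨wa + wb, fun i => M₀.add_mem (hwa i) (hwb i), map_add f wa wb⟩
    | neg a _ ha =>
      obtain ⟨wa, hwa, rfl⟩ := ha
      exact ⟨-wa, fun i => M₀.neg_mem (hwa i), map_neg f wa⟩
  obtain ⟨w, hwM₀, rfl⟩ := hA w' hw'
  -- Step B: the preimage of `N'`
  let Ñ : AddSubgroup (Fin r → M) := (N'.comap f).map X₁.subtype
  have hmemÑ : ∀ x : Fin r → M, x ∈ Ñ ↔ ∃ hx : x ∈ X₁, f ⟨x, hx⟩ ∈ N' := by
    intro x
    constructor
    · rintro ⟨y, hy, rfl⟩
      exact ⟨y.2, hy⟩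
    · rintro ⟨hx, hfx⟩
      exact ⟨⟨x, hx⟩, hfx, rfl⟩
  have hÑst : ∀ g ∈ I, ∀ x ∈ Ñ, (fun i => act g (x i)) ∈ Ñ := by
    intro g hg x hx
    obtain ⟨hx1, hx2⟩ := (hmemÑ x).1 hx
    refine (hmemÑ _).2 ⟨hst₁ g x hx1, ?_⟩
    rw [heq g ⟨x, hx1⟩]
    exact hN' g hg _ hx2
  have hwÑ : ∀ g ∈ I, (fun i => act g (w.1 i)) - w.1 ∈ Ñ := by
    intro g hg
    refine (hmemÑ _).2 ⟨X₁.sub_mem (hst₁ g w.1 w.2) w.2, ?_⟩
    have : (⟨(fun i => act g (w.1 i)) - w.1, X₁.sub_mem (hst₁ g w.1 w.2) w.2⟩ : X₁) =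
        ⟨fun i => act g (w.1 i), hst₁ g w.1 w.2⟩ - w := rfl
    rw [this, map_sub, heq]
    exact hw'N' g hg
  -- Step C
  have hwpi : w.1 ∈ AddSubgroup.pi Set.univ (fun _ : Fin r => M₀) :=
    (AddSubgroup.mem_pi Set.univ).2 fun i _ => hwM₀ i
  obtain ⟨hx, hfx⟩ := (hmemÑ w.1).1 (hpi Ñ hÑst w.1 hwpi hwÑ)
  exact hfx

end Fermat.Agent.GS.Old
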