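import Mathlib
import Fermat.Agent.GP.Flat.ConnEt.OrdShape

set_option autoImplicit false

/-!
# CELL-S / OLD + ALG : ordinary line from per-level packages (hypothesis form)

`R` a Noetherian local ring, `ρ : GaloisRepAdic R`, `P | p` a place.  Suppose that at every level
`𝔪 ^ n` there is a subgroup `W_n ⊂ V/𝔪ⁿV`, stable under `D_P`, containing `(I_P - 1)(V/𝔪ⁿV)` and
satisfying (CE): for every `I_P`-stable subgroup `N`, `w ∈ W_n` and `(σ - 1) w ∈ N` for all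
`σ ∈ I_P` imply `w ∈ N` (i.e. `W_n` has no `I_P`-trivial subquotient).  If `(I_P - 1) V` is, modulo
`𝔪 V`, a line spanned by the image of some `v₀`, and is not zero, then `L = R ∙ (σ₀ - 1) u₀` is a
`D_P`-stable free rank one direct summand containing `(I_P - 1) V`: the frozen `IsOrdinaryAt` at `P`.

No flatness, no finiteness of the residue field beyond `Finite (R ⧸ 𝔪 ^ n)`, no cardinalities.
-/

open IsLocalRing

namespace Fermat.Agent.GS.Old

open Fermat.Agent.GP.Flat.ConnEt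

local notation "GQ" => (AlgebraicClosure ℚ ≃ₐ[ℚ] AlgebraicClosure ℚ)

section Level

variable {R : Type} [CommRing R] [IsLocalRing R] (ρ : GaloisRepAdic R)

/-- **Level statement, hypothesis form.**  `W ⊂ V/IV` a subgroup, stable under `D_P`, containing
`(I_P - 1)(V/IV)` and with (CE) (no `I_P`-trivial subquotient).  Then modulo `I V`,
`(I_P - 1) V ⊂ R ñ` and `R ñ` is `D_P`-stable, where `ñ = (σ₀ - 1) u₀`. -/
theorem level_span_of_package (I : Ideal R) (hI : Finite (R ⧸ I))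
    (P : ValuationSubring (AlgebraicClosure ℚ))
    (W : AddSubgroup (ρ.V ⧸ (I • (⊤ : Submodule R ρ.V))))
    (hWD : ∀ σ ∈ P.decompositionSubgroup ℚ, ∀ w, ρ.levelAction I σ w ∈ W ↔ w ∈ W)
    (hWI : ∀ σ ∈ P.inertiaSubgroupIn ℚ, ∀ u, ρ.levelAction I σ u - u ∈ W)
    (hWce : ∀ N : AddSubgroup (ρ.V ⧸ (I • (⊤ : Submodule R ρ.V))),
      (∀ σ ∈ P.inertiaSubgroupIn ℚ, ∀ u ∈ N, ρ.levelAction I σ u ∈ N) →
      ∀ w ∈ W, (∀ σ ∈ P.inertiaSubgroupIn ℚ, ρ.levelAction I σ w - w ∈ N) → w ∈ N)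
    (v₀ : ρ.V)
    (hv₀ : ∀ σ ∈ P.inertiaSubgroupIn ℚ, ∀ v : ρ.V, ∃ c : R,
      ρ.ρ σ v - v - c • v₀ ∈ maximalIdeal R • (⊤ : Submodule R ρ.V))
    {σ₀ : GQ} (hσ₀ : σ₀ ∈ P.inertiaSubgroupIn ℚ) (u₀ : ρ.V)
    (hu₀ : ρ.ρ σ₀ u₀ - u₀ ∉ maximalIdeal R • (⊤ : Submodule R ρ.V)) :
    (∀ σ ∈ P.inertiaSubgroupIn ℚ, ∀ v : ρ.V, ∃ c : R,
      ρ.ρ σ v - v - c • (ρ.ρ σ₀ u₀ - u₀) ∈ I • (⊤ : Submodule R ρ.V)) ∧
    (∀ g ∈ P.decompositionSubgroup ℚ, ∃ c : R,
      ρ.ρ g (ρ.ρ σ₀ u₀ - u₀) - c • (ρ.ρ σ₀ u₀ - u₀) ∈ I • (⊤ : Submodule R ρ.V)) := by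
  classical
  set π : ρ.V →ₗ[R] ρ.V ⧸ (I • (⊤ : Submodule R ρ.V)) := (I • (⊤ : Submodule R ρ.V)).mkQ with hπ
  have hπact : ∀ (σ : GQ) (v : ρ.V), ρ.levelAction I σ (π v) = π (ρ.ρ σ v) := fun σ v => rfl
  have hπsurj : Function.Surjective π := Submodule.mkQ_surjective _
  have hGfin : Finite (ρ.V ⧸ (I • (⊤ : Submodule R ρ.V))) := finite_quot_smul_top I hI
  set 𝔪V : Submodule R ρ.V := maximalIdeal R • (⊤ : Submodule R ρ.V) with h𝔪V
  set 𝔪G : Submodule R (ρ.V ⧸ (I • (⊤ : Submodule R ρ.V))) := maximalIdeal R • (⊤ : Submodule R (ρ.V ⧸ (I • (⊤ : Submodule R ρ.V)))) with h𝔪G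
  have hπ𝔪 : ∀ x ∈ 𝔪V, π x ∈ 𝔪G := by
    intro x hx
    refine Submodule.smul_induction_on (p := fun x => π x ∈ 𝔪G) hx (fun a ha y _ => ?_)
      (fun x y hx hy => ?_)
    · show π (a • y) ∈ 𝔪G
      rw [map_smul]
      exact Submodule.smul_mem_smul ha Submodule.mem_top
    · show π (x + y) ∈ 𝔪G
      rw [map_add]
      exact Submodule.add_mem _ hx hy
  -- the generators
  set S : Set (ρ.V ⧸ (I • (⊤ : Submodule R ρ.V))) :=
    {u | ∃ σ ∈ P.inertiaSubgroupIn ℚ, ∃ u' : ρ.V ⧸ (I • (⊤ : Submodule R ρ.V)), u = ρ.levelAction I σ u' - u'} with hS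
  have hSW : S ⊆ W := by
    rintro _ ⟨σ, hσ, u', rfl⟩
    exact hWI σ hσ u'
  -- `W` is the closure of `S`
  have hWcl : W = AddSubgroup.closure S := by
    apply le_antisymm
    · intro w hw
      refine hWce (AddSubgroup.closure S) ?_ w hw ?_
      · intro σ hσ u hu
        have : ρ.levelAction I σ u = u + (ρ.levelAction I σ u - u) := by abel
        rw [this]
        exact AddSubgroup.add_mem _ hu (AddSubgroup.subset_closure ⟨σ, hσ, u, rfl⟩)
      · intro σ hσ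
        exact AddSubgroup.subset_closure ⟨σ, hσ, w, rfl⟩
    · rw [AddSubgroup.closure_le]
      exact hSW
  -- `W` is an `R`-submodule
  have hsmul : ∀ (c : R) (w : ρ.V ⧸ (I • (⊤ : Submodule R ρ.V))), w ∈ W → c • w ∈ W := by
    intro c w hw
    rw [hWcl] at hw
    induction hw using AddSubgroup.closure_induction with
    | mem u hu =>
      obtain ⟨σ, hσ, u', rfl⟩ := hu
      have : c • (ρ.levelAction I σ u' - u') = ρ.levelAction I σ (c • u') - c • u' := by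
        rw [smul_sub, map_smul]
      rw [this]
      exact hWI σ hσ _
    | zero => rw [smul_zero]; exact W.zero_mem
    | add a b _ _ ha hb => rw [smul_add]; exact W.add_mem ha hb
    | neg a _ ha => rw [smul_neg]; exact W.neg_mem ha
  set N : Submodule R (ρ.V ⧸ (I • (⊤ : Submodule R ρ.V))) :=
    { carrier := W
      add_mem' := W.add_mem
      zero_mem' := W.zero_mem
      smul_mem' := hsmul } with hN
  have hmemN : ∀ w, w ∈ N ↔ w ∈ W := fun w => Iff.rfl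
  have hIN : ∀ σ ∈ P.inertiaSubgroupIn ℚ, ∀ u ∈ N, ρ.levelAction I σ u ∈ N := by
    intro σ hσ u hu
    have : ρ.levelAction I σ u = u + (ρ.levelAction I σ u - u) := by abel
    rw [this]
    exact N.add_mem hu (hWI σ hσ u)
  -- (CE) with `N₁ = 𝔪 N`
  have hinter : N ⊓ 𝔪G ≤ maximalIdeal R • N := by
    rintro w ⟨hwN, hw𝔪⟩
    refine hWce (maximalIdeal R • N).toAddSubgroup ?_ w hwN ?_
    · intro σ hσ u hu
      change u ∈ maximalIdeal R • N at hu
      show ρ.levelAction I σ u ∈ maximalIdeal R • N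
      refine Submodule.smul_induction_on (p := fun u => ρ.levelAction I σ u ∈ maximalIdeal R • N)
        hu (fun a ha y hy => ?_) (fun x y hx hy => ?_)
      · show ρ.levelAction I σ (a • y) ∈ maximalIdeal R • N
        rw [map_smul]
        exact Submodule.smul_mem_smul ha (hIN σ hσ y hy)
      · show ρ.levelAction I σ (x + y) ∈ maximalIdeal R • N
        rw [map_add]
        exact Submodule.add_mem _ hx hy
    · intro σ hσ
      show ρ.levelAction I σ w - w ∈ maximalIdeal R • N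
      have hw𝔪' : w ∈ maximalIdeal R • (⊤ : Submodule R (ρ.V ⧸ (I • (⊤ : Submodule R ρ.V)))) := hw𝔪
      refine Submodule.smul_induction_on
        (p := fun u => ρ.levelAction I σ u - u ∈ maximalIdeal R • N) hw𝔪'
        (fun a ha y _ => ?_) (fun x y hx hy => ?_)
      · show ρ.levelAction I σ (a • y) - a • y ∈ maximalIdeal R • N
        have : ρ.levelAction I σ (a • y) - a • y = a • (ρ.levelAction I σ y - y) := by
          rw [map_smul, smul_sub]
        rw [this]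
        exact Submodule.smul_mem_smul ha (hWI σ hσ y)
      · show ρ.levelAction I σ (x + y) - (x + y) ∈ maximalIdeal R • N
        have : ρ.levelAction I σ (x + y) - (x + y) =
            (ρ.levelAction I σ x - x) + (ρ.levelAction I σ y - y) := by
          rw [map_add]; abel
        rw [this]
        exact Submodule.add_mem _ hx hy
  -- the generator
  set ñ : ρ.V := ρ.ρ σ₀ u₀ - u₀ with hñ
  have hπñ : π ñ = ρ.levelAction I σ₀ (π u₀) - π u₀ := by rw [hπact, hñ, map_sub]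
  have hñN : π ñ ∈ N := by
    rw [hπñ]
    exact hWI σ₀ hσ₀ (π u₀)
  obtain ⟨c₀, hc₀⟩ := hv₀ σ₀ hσ₀ u₀
  have hc₀u : IsUnit c₀ := by
    by_contra hnu
    apply hu₀
    have h1 : c₀ • v₀ ∈ 𝔪V :=
      Submodule.smul_mem_smul ((IsLocalRing.mem_maximalIdeal _).2 hnu) Submodule.mem_top
    have := 𝔪V.add_mem hc₀ h1
    rwa [sub_add_cancel] at this
  set T : Submodule R (ρ.V ⧸ (I • (⊤ : Submodule R ρ.V))) := (R ∙ π ñ) ⊔ 𝔪G with hT
  have hñT : π ñ ∈ T := Submodule.mem_sup_left (Submodule.mem_span_singleton_self _)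
  have hv₀T : π v₀ ∈ T := by
    obtain ⟨u, hu⟩ := hc₀u
    have h1 : c₀ • π v₀ ∈ T := by
      have : c₀ • π v₀ = π ñ - π (ñ - c₀ • v₀) := by
        rw [map_sub π ñ, map_smul]; abel
      rw [this]
      exact T.sub_mem hñT (Submodule.mem_sup_right (hπ𝔪 _ hc₀))
    have : π v₀ = (↑u⁻¹ : R) • (c₀ • π v₀) := by
      rw [← hu, smul_smul, Units.inv_mul, one_smul]
    rw [this]
    exact T.smul_mem _ h1
  have hST : ∀ σ ∈ P.inertiaSubgroupIn ℚ, ∀ u : ρ.V ⧸ (I • (⊤ : Submodule R ρ.V)), ρ.levelAction I σ u - u ∈ T := by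
    intro σ hσ u
    obtain ⟨v, rfl⟩ := hπsurj u
    obtain ⟨c, hc⟩ := hv₀ σ hσ v
    have : ρ.levelAction I σ (π v) - π v = π (ρ.ρ σ v - v - c • v₀) + c • π v₀ := by
      rw [hπact, map_sub, map_sub, map_smul]; abel
    rw [this]
    exact T.add_mem (Submodule.mem_sup_right (hπ𝔪 _ hc)) (T.smul_mem _ hv₀T)
  have hNT : N ≤ T := by
    intro w hw
    rw [hmemN, hWcl] at hw
    induction hw using AddSubgroup.closure_induction with
    | mem u hu =>
      obtain ⟨σ, hσ, u', rfl⟩ := hu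
      exact hST σ hσ u'
    | zero => exact T.zero_mem
    | add a b _ _ ha hb => exact T.add_mem ha hb
    | neg a _ ha => exact T.neg_mem ha
  have hñle : (R ∙ π ñ) ≤ N := by
    rw [Submodule.span_singleton_le_iff_mem]
    exact hñN
  have hNak : N ≤ (R ∙ π ñ) ⊔ maximalIdeal R • N := by
    intro x hx
    obtain ⟨y, hy, z, hz, hyz⟩ := Submodule.mem_sup.1 (hNT hx)
    have hzN : z ∈ N := by
      have : z = x - y := by rw [← hyz]; abel
      rw [this]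
      exact N.sub_mem hx (hñle hy)
    rw [← hyz]
    exact Submodule.add_mem_sup hy (hinter ⟨hzN, hz⟩)
  have hNfg : N.FG := by
    have : IsNoetherian R (ρ.V ⧸ (I • (⊤ : Submodule R ρ.V))) := isNoetherian_of_finite R _
    exact IsNoetherian.noetherian N
  have hNle : N ≤ R ∙ π ñ :=
    Submodule.le_of_le_smul_of_le_jacobson_bot hNfg (IsLocalRing.maximalIdeal_le_jacobson ⊥) hNak
  have hker : ∀ x : ρ.V, π x = 0 → x ∈ (I • (⊤ : Submodule R ρ.V)) := by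
    intro x hx
    rwa [hπ, Submodule.mkQ_apply, Submodule.Quotient.mk_eq_zero] at hx
  refine ⟨fun σ hσ v => ?_, fun g hg => ?_⟩
  · have h1 : π (ρ.ρ σ v - v) ∈ N := by
      have : π (ρ.ρ σ v - v) = ρ.levelAction I σ (π v) - π v := by rw [hπact, map_sub]
      rw [this]
      exact hWI σ hσ (π v)
    obtain ⟨c, hc⟩ := Submodule.mem_span_singleton.1 (hNle h1)
    refine ⟨c, hker _ ?_⟩
    rw [map_sub, map_smul, hc, sub_self]
  · have h1 : π (ρ.ρ g ñ) ∈ N := by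
      rw [← hπact]
      exact (hWD g hg (π ñ)).2 hñN
    obtain ⟨c, hc⟩ := Submodule.mem_span_singleton.1 (hNle h1)
    refine ⟨c, hker _ ?_⟩
    rw [map_sub, map_smul, hc, sub_self]

end Level


section Adic

variable {R : Type} [CommRing R] [IsLocalRing R] [IsNoetherianRing R] (ρ : GaloisRepAdic R)

/-- Krull: a vector congruent to a multiple of `x` modulo every `𝔪 ^ n V` is a multiple of `x`. -/
theorem mem_span_singleton_of_forall_pow {V : Type*} [AddCommGroup V] [Module R V]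
    [Module.Finite R V] (x y : V)
    (h : ∀ n : ℕ, ∃ c : R, y - c • x ∈ (maximalIdeal R ^ n) • (⊤ : Submodule R V)) :
    y ∈ R ∙ x := by
  set q : V →ₗ[R] V ⧸ (R ∙ x) := (R ∙ x).mkQ with hq
  have hmem : q y ∈ (⨅ n : ℕ, (maximalIdeal R ^ n) • (⊤ : Submodule R (V ⧸ (R ∙ x)))) := by
    rw [Submodule.mem_iInf]
    intro n
    obtain ⟨c, hc⟩ := h n
    have hqy : q y = q (y - c • x) := by
      rw [map_sub, map_smul]
      have : q x = 0 := by
        rw [hq, Submodule.mkQ_apply, Submodule.Quotient.mk_eq_zero]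
        exact Submodule.mem_span_singleton_self x
      rw [this, smul_zero, sub_zero]
    rw [hqy]
    refine Submodule.smul_induction_on
      (p := fun z => q z ∈ (maximalIdeal R ^ n) • (⊤ : Submodule R (V ⧸ (R ∙ x)))) hc
      (fun a ha z _ => ?_) (fun z z' hz hz' => ?_)
    · show q (a • z) ∈ _
      rw [map_smul]
      exact Submodule.smul_mem_smul ha Submodule.mem_top
    · show q (z + z') ∈ _
      rw [map_add]
      exact Submodule.add_mem _ hz hz'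
  rw [Ideal.iInf_pow_smul_eq_bot_of_isLocalRing (maximalIdeal R)
    (IsLocalRing.maximalIdeal.isMaximal R).ne_top, Submodule.mem_bot, hq, Submodule.mkQ_apply,
    Submodule.Quotient.mk_eq_zero] at hmem
  exact hmem

/-- **Ordinary line from per-level packages.** -/
theorem exists_line_of_levels (P : ValuationSubring (AlgebraicClosure ℚ))
    (hfin : ∀ n : ℕ, Finite (R ⧸ maximalIdeal R ^ n))
    (v₀ : ρ.V)
    (hv₀ : ∀ σ ∈ P.inertiaSubgroupIn ℚ, ∀ v : ρ.V, ∃ c : R,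
      ρ.ρ σ v - v - c • v₀ ∈ maximalIdeal R • (⊤ : Submodule R ρ.V))
    (hne : ∃ σ₀ ∈ P.inertiaSubgroupIn ℚ, ∃ v : ρ.V,
      ρ.ρ σ₀ v - v ∉ maximalIdeal R • (⊤ : Submodule R ρ.V))
    (hlev : ∀ n : ℕ, ∃ W : AddSubgroup (ρ.V ⧸ ((maximalIdeal R ^ n) • (⊤ : Submodule R ρ.V))),
      (∀ σ ∈ P.decompositionSubgroup ℚ, ∀ w, ρ.levelAction (maximalIdeal R ^ n) σ w ∈ W ↔ w ∈ W) ∧
      (∀ σ ∈ P.inertiaSubgroupIn ℚ, ∀ u, ρ.levelAction (maximalIdeal R ^ n) σ u - u ∈ W) ∧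
      (∀ N : AddSubgroup (ρ.V ⧸ ((maximalIdeal R ^ n) • (⊤ : Submodule R ρ.V))),
        (∀ σ ∈ P.inertiaSubgroupIn ℚ, ∀ u ∈ N, ρ.levelAction (maximalIdeal R ^ n) σ u ∈ N) →
        ∀ w ∈ W, (∀ σ ∈ P.inertiaSubgroupIn ℚ,
          ρ.levelAction (maximalIdeal R ^ n) σ w - w ∈ N) → w ∈ N)) :
    ∃ L : Submodule R ρ.V,
      (∃ b : Module.Basis (Fin 2) R ρ.V, L = R ∙ b 0) ∧
      (∀ σ ∈ P.decompositionSubgroup ℚ, ∀ v ∈ L, ρ.ρ σ v ∈ L) ∧
      (∀ σ ∈ P.inertiaSubgroupIn ℚ, ∀ v : ρ.V, ρ.ρ σ v - v ∈ L) := by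
  obtain ⟨σ₀, hσ₀, u₀, hu₀⟩ := hne
  set ñ : ρ.V := ρ.ρ σ₀ u₀ - u₀ with hñ
  have hl : ∀ n : ℕ,
      (∀ σ ∈ P.inertiaSubgroupIn ℚ, ∀ v : ρ.V, ∃ c : R,
        ρ.ρ σ v - v - c • ñ ∈ (maximalIdeal R ^ n) • (⊤ : Submodule R ρ.V)) ∧
      (∀ g ∈ P.decompositionSubgroup ℚ, ∃ c : R,
        ρ.ρ g ñ - c • ñ ∈ (maximalIdeal R ^ n) • (⊤ : Submodule R ρ.V)) := by
    intro n
    obtain ⟨W, hWD, hWI, hWce⟩ := hlev n
    exact level_span_of_package ρ (maximalIdeal R ^ n) (hfin n) P W hWD hWI hWce v₀ hv₀ hσ₀ u₀ hu₀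
  obtain ⟨b, hb⟩ := exists_basis_zero_eq ρ.finrank_eq hu₀
  refine ⟨R ∙ ñ, ⟨b, by rw [hb]⟩, ?_, ?_⟩
  · intro g hg v hv
    obtain ⟨a, rfl⟩ := Submodule.mem_span_singleton.1 hv
    rw [map_smul]
    refine Submodule.smul_mem _ _ ?_
    exact mem_span_singleton_of_forall_pow ñ _ fun n => (hl n).2 g hg
  · intro σ hσ v
    exact mem_span_singleton_of_forall_pow ñ _ fun n => (hl n).1 σ hσ v

/-- **Frozen `IsOrdinaryAt` from per-level packages at every place above `p`.** -/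
theorem isOrdinaryAt_of_levels {p : ℕ}
    (hfin : ∀ n : ℕ, Finite (R ⧸ maximalIdeal R ^ n))
    (h : ∀ P : ValuationSubring (AlgebraicClosure ℚ), P.LiesOverPrime p →
      (∃ v₀ : ρ.V,
        (∀ σ ∈ P.inertiaSubgroupIn ℚ, ∀ v : ρ.V, ∃ c : R,
          ρ.ρ σ v - v - c • v₀ ∈ maximalIdeal R • (⊤ : Submodule R ρ.V)) ∧
        ∃ σ₀ ∈ P.inertiaSubgroupIn ℚ, ∃ v : ρ.V,
          ρ.ρ σ₀ v - v ∉ maximalIdeal R • (⊤ : Submodule R ρ.V)) ∧
      ∀ n : ℕ, ∃ W : AddSubgroup (ρ.V ⧸ ((maximalIdeal R ^ n) • (⊤ : Submodule R ρ.V))),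
        (∀ σ ∈ P.decompositionSubgroup ℚ, ∀ w,
          ρ.levelAction (maximalIdeal R ^ n) σ w ∈ W ↔ w ∈ W) ∧
        (∀ σ ∈ P.inertiaSubgroupIn ℚ, ∀ u, ρ.levelAction (maximalIdeal R ^ n) σ u - u ∈ W) ∧
        (∀ N : AddSubgroup (ρ.V ⧸ ((maximalIdeal R ^ n) • (⊤ : Submodule R ρ.V))),
          (∀ σ ∈ P.inertiaSubgroupIn ℚ, ∀ u ∈ N, ρ.levelAction (maximalIdeal R ^ n) σ u ∈ N) →
          ∀ w ∈ W, (∀ σ ∈ P.inertiaSubgroupIn ℚ,
            ρ.levelAction (maximalIdeal R ^ n) σ w - w ∈ N) → w ∈ N)) :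
    ρ.IsOrdinaryAt p := by
  intro P hP
  obtain ⟨⟨v₀, hv₀, hne⟩, hlev⟩ := h P hP
  exact exists_line_of_levels ρ P hfin v₀ hv₀ hne hlev

end Adic

end Fermat.Agent.GS.Old
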