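import Mathlib
import Fermat.Agent.GP.Flat.ConnEt.CE

set_option autoImplicit false

/-!
# CELL-S / OLD : the abstract connected–étale lemma (CE) for points of `p`-power order

Generalisation of `GP/Flat/ConnEt/CE.lean` (`mul_sub_one_eq_zero`, `mem_of_rational_coset_sums`)
from points killed by `p` to points killed by `p ^ k`.  Everything else is imported unchanged.

* `eq_zero_of_one_add_mul_pow_prime_pow_eq_one` : Lemma F in algebra form for the exponent `p ^ k`;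
* `mul_sub_one_eq_zero_pk` : core of (CE);
* `mem_of_rational_coset_sums_pk` : (CE), abstract form.
-/

namespace Fermat.Agent.GS.Old

open Coalgebra WithConv
open Fermat.Agent.GP.Flat.ConnEt

/-- **Lemma F, algebra form, exponent `p ^ k`.**  `p ≥ 3` a nonzerodivisor of `B` such that all
`1 + p s` are units: `(1 + p t) ^ (p ^ k) = 1` forces `t = 0`. -/
theorem eq_zero_of_one_add_mul_pow_prime_pow_eq_one {B : Type*} [CommRing B] {p : ℕ}
    (hp : p.Prime) (hp3 : 3 ≤ p) (hnzd : ∀ x : B, (p : B) * x = 0 → x = 0)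
    (hunit : ∀ s : B, IsUnit (1 + (p : B) * s)) (k : ℕ) {t : B}
    (ht : (1 + (p : B) * t) ^ (p ^ k) = 1) : t = 0 := by
  induction k generalizing t with
  | zero =>
    rw [pow_zero, pow_one] at ht
    exact hnzd t (by linear_combination ht)
  | succ k ih =>
    obtain ⟨r, hr⟩ := exists_one_add_pow_prime_eq hp ((p : B) * t)
    have hpow : ((p : B) * t) ^ p =
        (p : B) * ((p : B) * t) * ((p : B) * ((p : B) ^ (p - 3) * t ^ (p - 1))) := by
      have h1 : p = (p - 3) + 3 := by omega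
      have h2 : p = (p - 1) + 1 := by omega
      calc ((p : B) * t) ^ p = (p : B) ^ p * t ^ p := mul_pow _ _ _
        _ = (p : B) ^ ((p - 3) + 3) * t ^ ((p - 1) + 1) := by rw [← h1, ← h2]
        _ = _ := by rw [pow_add, pow_succ t]; ring
    set s : B := (p : B) ^ (p - 3) * t ^ (p - 1) + t * r with hs
    have hstep : (1 + (p : B) * t) ^ p = 1 + (p : B) * ((p : B) * (t * (1 + (p : B) * s))) := by
      rw [hr, hpow, hs]
      ring
    have ht' : (1 + (p : B) * ((p : B) * (t * (1 + (p : B) * s)))) ^ (p ^ k) = 1 := by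
      rw [← hstep, ← pow_mul, ← pow_succ']
      exact ht
    have h1 := hnzd _ (ih ht')
    exact ((hunit _).mul_left_eq_zero).1 h1

section Core

variable {Λ : Type*} [CommRing Λ] {H : Type*} [CommRing H] [Bialgebra Λ H]
  [Coalgebra.IsCocomm Λ H]
variable {n : ℕ} (b : Module.Basis (Fin n) Λ H)
variable {K : Type*} [Field K] [CharZero K] [Algebra Λ K] (A : ValuationSubring K)
  [Algebra Λ A] [IsScalarTower Λ A K]
variable {K₀ : Type*} [Field K₀] [Algebra Λ K₀] [Algebra K₀ K] [IsScalarTower Λ K₀ K]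
variable {R₀ : Type*} [CommRing R₀] [IsDomain R₀] [IsPrincipalIdealRing R₀] [Algebra R₀ K₀]
  [IsFractionRing R₀ K₀]

/-- **Core of (CE), exponent `p ^ k`.**  `e` a `K₀`-rational idempotent of the convolution
algebra, `F` a `p ^ k`-torsion unit congruent to `1` modulo `𝔪_A` with `e (F - 1)` rational, `K₀`
unramified: then `e (F - 1) = 0`. -/
theorem mul_sub_one_eq_zero_pk {p : ℕ} (hp : p.Prime) (hp3 : 3 ≤ p) (k : ℕ)
    (hpA : (p : K) ∈ A.nonunits)
    (hR₀A : ∀ r : R₀, algebraMap K₀ K (algebraMap R₀ K₀ r) ∈ A)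
    (hunr : ∀ x : K₀, algebraMap K₀ K x ∈ A.nonunits →
      ∃ r : R₀, x = algebraMap R₀ K₀ ((p : R₀) * r))
    (e₀ z₀ : WithConv (H →ₗ[Λ] K₀)) (F : WithConv (H →ₗ[Λ] K))
    (he : mapConv (IsScalarTower.toAlgHom Λ K₀ K) e₀ * mapConv (IsScalarTower.toAlgHom Λ K₀ K) e₀ =
      mapConv (IsScalarTower.toAlgHom Λ K₀ K) e₀)
    (hFp : F ^ (p ^ k) = 1)
    (hFm : ∀ i, F (b i) - algebraMap Λ K (Coalgebra.counit (b i)) ∈ A.nonunits)
    (hz : mapConv (IsScalarTower.toAlgHom Λ K₀ K) e₀ * (F - 1) =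
      mapConv (IsScalarTower.toAlgHom Λ K₀ K) z₀) :
    mapConv (IsScalarTower.toAlgHom Λ K₀ K) e₀ * (F - 1) = 0 := by
  classical
  set ι₀ : K₀ →ₐ[Λ] K := IsScalarTower.toAlgHom Λ K₀ K with hι₀
  set ιA : A →ₐ[Λ] K := IsScalarTower.toAlgHom Λ A K with hιA
  set e := mapConv (H := H) ι₀ e₀ with he_def
  have hp0 : (p : K) ≠ 0 := Nat.cast_ne_zero.2 hp.ne_zero
  -- coordinates of `F - 1`
  set w : Fin n → K := fun i => (F - 1) (b i) with hw
  have hwm : ∀ i, w i ∈ A.nonunits.toAddSubgroup := fun i => hFm i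
  have hFw : F - 1 = ofCoords b K w := (ofCoords_coords b (F - 1)).symm
  -- the matrix of multiplication by `e`
  set E : Matrix (Fin n) (Fin n) K₀ := fun i j => (e₀ * dualFn b K₀ j) (b i) with hE
  have hmulE : ∀ (c : Fin n → K) (i : Fin n),
      (e * ofCoords b K c) (b i) = ((E.map ι₀).mulVec c) i := by
    intro c i
    rw [he_def, mapConv_mul_ofCoords_basis]
    rfl
  -- the rationality lemma
  obtain ⟨w', hw'⟩ := exists_integral_preimage (R₀ := R₀) E A.nonunits.toAddSubgroup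
    (fun r c hc => mul_mem_nonunits A (hR₀A r) hc) (p : R₀) (fun x hx => hunr x hx) w hwm
    (fun i => z₀ (b i)) (by
      funext i
      have h := hmulE w i
      rw [← hFw, hz] at h
      exact h.symm)
  -- the integral elements
  set tA : WithConv (H →ₗ[Λ] A) :=
    ofCoords b A (fun j => ⟨algebraMap K₀ K (algebraMap R₀ K₀ (w' j)), hR₀A _⟩) with htA_def
  have hFA : ∀ i, F (b i) ∈ A := by
    intro i
    have h1 := A.nonunits_subset (hFm i)
    have h2 := algebraMap_mem_of_tower A (Coalgebra.counit (R := Λ) (b i))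
    have := A.add_mem _ _ h1 h2
    rwa [sub_add_cancel] at this
  set FA : WithConv (H →ₗ[Λ] A) := ofCoords b A (fun i => ⟨F (b i), hFA i⟩) with hFA_def
  have hFA' : mapConv ιA FA = F := by
    rw [hFA_def, mapConv_ofCoords]
    exact ofCoords_coords b F
  have htA : e * (F - 1) = (p : WithConv (H →ₗ[Λ] K)) * (e * mapConv ιA tA) := by
    apply conv_ext_basis b
    intro i
    rw [natCast_mul_apply, htA_def, mapConv_ofCoords, hmulE, hz, mapConv_apply]
    have := congrFun hw' i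
    rw [this]
    simp only [Matrix.mulVec, dotProduct, Matrix.map_apply, map_sum, map_mul, map_natCast,
      Finset.mul_sum]
    refine Finset.sum_congr rfl fun j _ => ?_
    show ι₀ (E i j) * ((p : K) * ι₀ (algebraMap R₀ K₀ (w' j))) =
      (p : K) * (ι₀ (E i j) * algebraMap K₀ K (algebraMap R₀ K₀ (w' j)))
    rw [show ι₀ (algebraMap R₀ K₀ (w' j)) = algebraMap K₀ K (algebraMap R₀ K₀ (w' j)) from rfl]
    ring
  -- the quotient ring
  set J : Ideal (WithConv (H →ₗ[Λ] A)) := Ideal.comap (mapConv ιA) (Ideal.span {1 - e}) with hJ_def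
  have hJ : ∀ a, a ∈ J ↔ e * mapConv ιA a = 0 := by
    intro a
    rw [hJ_def, Ideal.mem_comap, Ideal.mem_span_singleton']
    constructor
    · rintro ⟨y, hy⟩
      rw [← hy]
      calc e * (y * (1 - e)) = y * (e - e * e) := by ring
        _ = 0 := by rw [he, sub_self, mul_zero]
    · intro h
      exact ⟨mapConv ιA a, by rw [mul_sub, mul_one, mul_comm _ e, h, sub_zero]⟩
  have : Module.Finite A (WithConv (H →ₗ[Λ] A)) := finite_conv b A
  have : Module.Finite A (WithConv (H →ₗ[Λ] A) ⧸ J) :=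
    Module.Finite.of_surjective (Ideal.Quotient.mkₐ A J).toLinearMap
      (Ideal.Quotient.mkₐ_surjective A J)
  have hnzd : ∀ x : WithConv (H →ₗ[Λ] A) ⧸ J, (p : WithConv (H →ₗ[Λ] A) ⧸ J) * x = 0 → x = 0 := by
    intro x hx
    obtain ⟨a, rfl⟩ := Ideal.Quotient.mk_surjective x
    rw [← map_natCast (Ideal.Quotient.mk J), ← map_mul, Ideal.Quotient.eq_zero_iff_mem, hJ,
      map_mul, map_natCast, mul_left_comm] at hx
    rw [Ideal.Quotient.eq_zero_iff_mem, hJ]
    exact eq_zero_of_natCast_mul_eq_zero hp0 hx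
  have hunit : ∀ s : WithConv (H →ₗ[Λ] A) ⧸ J,
      IsUnit (1 + (p : WithConv (H →ₗ[Λ] A) ⧸ J) * s) := by
    intro s
    have hpm : ((p : ℕ) : A) ∈ IsLocalRing.maximalIdeal A := by
      obtain ⟨h1, h2⟩ := A.mem_nonunits_iff_exists_mem_maximalIdeal.1 hpA
      have : (⟨(p : K), h1⟩ : A) = ((p : ℕ) : A) := Subtype.ext (by simp)
      rwa [this] at h2
    have := isUnit_one_add_smul hpm s
    rwa [Nat.cast_smul_eq_nsmul, nsmul_eq_mul] at this
  have h1 : Ideal.Quotient.mk J FA = 1 + (p : WithConv (H →ₗ[Λ] A) ⧸ J) * Ideal.Quotient.mk J tA := by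
    rw [← map_natCast (Ideal.Quotient.mk J), ← map_mul, ← map_one (Ideal.Quotient.mk J), ← map_add,
      Ideal.Quotient.eq, hJ, map_sub, map_add, map_mul, map_one, map_natCast, hFA']
    calc e * (F - (1 + (p : WithConv (H →ₗ[Λ] K)) * mapConv ιA tA))
        = e * (F - 1) - (p : WithConv (H →ₗ[Λ] K)) * (e * mapConv ιA tA) := by ring
      _ = 0 := by rw [htA, sub_self]
  have hFAp : FA ^ (p ^ k) = 1 := by
    apply mapConv_injective ιA (fun x y hxy => Subtype.ext hxy)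
    rw [map_pow, hFA', hFp, map_one]
  have ht : (1 + (p : WithConv (H →ₗ[Λ] A) ⧸ J) * Ideal.Quotient.mk J tA) ^ (p ^ k) = 1 := by
    rw [← h1, ← map_pow, hFAp, map_one]
  have h0 := eq_zero_of_one_add_mul_pow_prime_pow_eq_one
    (B := WithConv (H →ₗ[Λ] A) ⧸ J) hp hp3 hnzd hunit k ht
  rw [Ideal.Quotient.eq_zero_iff_mem, hJ] at h0
  rw [htA, h0, mul_zero]

end Core

section Main

variable {Λ : Type*} [CommRing Λ] {H : Type*} [CommRing H] [Bialgebra Λ H]
  [Coalgebra.IsCocomm Λ H]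
variable {n : ℕ} (b : Module.Basis (Fin n) Λ H)
variable {K : Type*} [Field K] [CharZero K] [Algebra Λ K] (A : ValuationSubring K)
  [Algebra Λ A] [IsScalarTower Λ A K]
variable {K₀ : Type*} [Field K₀] [Algebra Λ K₀] [Algebra K₀ K] [IsScalarTower Λ K₀ K]
variable {R₀ : Type*} [CommRing R₀] [IsDomain R₀] [IsPrincipalIdealRing R₀] [Algebra R₀ K₀]
  [IsFractionRing R₀ K₀]

/-- **(CE), abstract form, exponent `p ^ k`.**  `N₁` a finite group of `K`-points of `H`, `f` a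
point killed by `p ^ k` (`p ≥ 3`) and congruent to the unit section modulo `𝔪_A`.  If the two
coset sums `∑_{m ∈ N₁} m` and `∑_{m ∈ N₁} f m` are rational over an unramified subfield `K₀`, then
`f ∈ N₁`. -/
theorem mem_of_rational_coset_sums_pk {p : ℕ} (hp : p.Prime) (hp3 : 3 ≤ p) (k : ℕ)
    (hpA : (p : K) ∈ A.nonunits)
    (hR₀A : ∀ r : R₀, algebraMap K₀ K (algebraMap R₀ K₀ r) ∈ A)
    (hunr : ∀ x : K₀, algebraMap K₀ K x ∈ A.nonunits →
      ∃ r : R₀, x = algebraMap R₀ K₀ ((p : R₀) * r))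
    (N₁ : Finset (WithConv (H →ₐ[Λ] K))) (h1 : 1 ∈ N₁)
    (hmul : ∀ m ∈ N₁, ∀ m' ∈ N₁, m * m' ∈ N₁) (hinv : ∀ m ∈ N₁, ∃ m' ∈ N₁, m * m' = 1)
    (f : WithConv (H →ₐ[Λ] K)) (hfp : f ^ (p ^ k) = 1)
    (hfm : ∀ i, f (b i) - algebraMap Λ K (Coalgebra.counit (b i)) ∈ A.nonunits)
    (S₁ S₂ : WithConv (H →ₗ[Λ] K₀))
    (hS₁ : mapConv (IsScalarTower.toAlgHom Λ K₀ K) S₁ = ∑ m ∈ N₁, lin m)
    (hS₂ : mapConv (IsScalarTower.toAlgHom Λ K₀ K) S₂ = ∑ m ∈ N₁, lin (f * m)) :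
    f ∈ N₁ := by
  classical
  set ι₀ : K₀ →ₐ[Λ] K := IsScalarTower.toAlgHom Λ K₀ K with hι₀
  set S : WithConv (H →ₗ[Λ] K) := ∑ m ∈ N₁, lin m with hS
  set F : WithConv (H →ₗ[Λ] K) := lin f with hF
  have hq : ((N₁.card : ℕ) : K) ≠ 0 :=
    Nat.cast_ne_zero.2 (Finset.card_ne_zero.2 ⟨1, h1⟩)
  have hq₀ : ((N₁.card : ℕ) : K₀) ≠ 0 := by
    intro h
    apply hq
    have := congrArg (algebraMap K₀ K) h
    rwa [map_natCast, map_zero] at this
  have hι₀q : ι₀ (((N₁.card : ℕ) : K₀)⁻¹) = ((N₁.card : ℕ) : K)⁻¹ := by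
    rw [map_inv₀, map_natCast]
  -- `S * S = #N₁ • S`
  have hSS : S * S = ((N₁.card : ℕ) : K) • S := by
    conv_lhs => rw [hS, Finset.sum_mul]
    rw [Finset.sum_congr rfl (fun m hm => by
      obtain ⟨m', hm', hmm'⟩ := hinv m hm
      exact lin_mul_sum_eq N₁ hmul hm hm' hmm')]
    rw [Finset.sum_const, ← hS, Nat.cast_smul_eq_nsmul]
  have hFS : F * S = ∑ m ∈ N₁, lin (f * m) := by
    rw [hS, Finset.mul_sum]
    exact Finset.sum_congr rfl fun m _ => (lin_mul f m).symm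
  -- the idempotent
  set e₀ : WithConv (H →ₗ[Λ] K₀) := ((N₁.card : ℕ) : K₀)⁻¹ • S₁ with he₀
  set z₀ : WithConv (H →ₗ[Λ] K₀) := ((N₁.card : ℕ) : K₀)⁻¹ • (S₂ - S₁) with hz₀
  have he₀' : mapConv ι₀ e₀ = ((N₁.card : ℕ) : K)⁻¹ • S := by
    rw [he₀, mapConv_smul, hι₀q, hS₁]
  have hz₀' : mapConv ι₀ z₀ = ((N₁.card : ℕ) : K)⁻¹ • (F * S - S) := by
    rw [hz₀, mapConv_smul, hι₀q, map_sub, hS₁, hS₂, hFS]
  have he : mapConv ι₀ e₀ * mapConv ι₀ e₀ = mapConv ι₀ e₀ := by
    rw [he₀', smul_mul_smul_comm, hSS, smul_smul, mul_assoc, inv_mul_cancel₀ hq, mul_one]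
  have hFp : F ^ (p ^ k) = 1 := by rw [hF, ← lin_pow, hfp, lin_one]
  have hz : mapConv ι₀ e₀ * (F - 1) = mapConv ι₀ z₀ := by
    rw [he₀', hz₀', smul_mul_assoc, mul_sub, mul_one, mul_comm S F]
  have h0 := mul_sub_one_eq_zero_pk b A hp hp3 k hpA hR₀A hunr e₀ z₀ F he hFp hfm hz
  rw [hz, hz₀', smul_eq_zero, sub_eq_zero] at h0
  have hFS' : F * S = S := h0.resolve_left (inv_ne_zero hq)
  -- Dedekind
  have hpk : 1 ≤ p ^ k := Nat.one_le_pow _ _ hp.pos
  have hfinv : f ^ (p ^ k - 1) * f = 1 := by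
    rw [← pow_succ, Nat.sub_add_cancel hpk, hfp]
  have hinj : Set.InjOn (fun m => f * m) (N₁ : Set (WithConv (H →ₐ[Λ] K))) := by
    intro m _ m' _ hmm'
    have := congrArg (fun x => f ^ (p ^ k - 1) * x) hmm'
    simpa only [← mul_assoc, hfinv, one_mul] using this
  have hsum : ∑ g ∈ N₁.image (fun m => f * m), lin g = ∑ g ∈ N₁, lin g := by
    rw [Finset.sum_image hinj, ← hFS, hFS']
  have hmem := mem_of_sum_lin_eq hsum (f := f)
    (Finset.mem_image.2 ⟨1, h1, mul_one f⟩)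
  exact hmem

end Main

end Fermat.Agent.GS.Old
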