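import Mathlib
import Fermat.Agent.GP.Flat.ConnEt.CEQbar
import Fermat.Agent.GS.Old.CEPk

set_option autoImplicit false
set_option linter.unusedSectionVars false

/-!
# CELL-S / OLD : connected points of a finite flat model, `p`-power torsion

Generalisation of `GP/Flat/AugConn.lean` + `GP/Flat/ConnEt/CEQbar.lean` from levels killed by `p`
to levels killed by `p ^ k`, in the FROZEN shape of `GaloisRepAdic.IsFlatAt`
(`H` a finite cocommutative bialgebra over `ℤ_(p)`, `e : Hom_alg(H, ℚ̄) ≃ V` a `G_ℚ`-equivariant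
group bijection).  `W = connSubgroupN …` is the subgroup of points congruent to the counit modulo
`𝔪_A`, `A | p`:

* `act_mem_connSubgroupN_iff`  : `W` is stable under `D_A`;
* `act_sub_mem_connSubgroupN`  : `(σ - 1) u ∈ W` for `σ ∈ I_A`;
* `eq_zero_of_mem_connSubgroupN_of_fixed` : `W^{I_A} = 0` (`p ≥ 3`);
* `mem_of_mem_connSubgroupN`   : **(CE)** `w ∈ W`, `N` an `I_A`-stable subgroup with
  `(σ - 1) w ∈ N` for all `σ ∈ I_A` ⟹ `w ∈ N` (`p ≥ 3`);
* `connSubgroupN_eq_closure`   : `W = ⟨(σ - 1) u : σ ∈ I_A⟩`.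
-/

open Fermat.Agent.Common_helper32
open Coalgebra WithConv

namespace Fermat.Agent.GS.Old

open Fermat.Agent.GL.Local.InertiaField Fermat.Agent.GP.Flat.AugInv Fermat.Agent.GP.Flat.AugConn
open Fermat.Agent.GP.Flat.ConnEt

section Frozen

variable {p : ℕ} {H : Type} [CommRing H] [Bialgebra (GaloisRep.ratLocalizedAt p) H]
  [Module.Finite (GaloisRep.ratLocalizedAt p) H]
  {V : Type*} [AddCommGroup V]

theorem neg_eq_smul_of_kill_nat {m : ℕ} (hm : 0 < m) (hV : ∀ u : V, m • u = 0) (u : V) :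
    -u = (m - 1) • u := by
  have h1 : (m - 1) • u + u = 0 := by
    rw [← succ_nsmul, Nat.sub_add_cancel hm]
    exact hV u
  exact (eq_neg_of_add_eq_zero_left h1).symm

/-- **connected points, frozen shape, level killed by `m`.** -/
noncomputable def connSubgroupN (hp : p.Prime)
    (e : WithConv (H →ₐ[GaloisRep.ratLocalizedAt p] AlgebraicClosure ℚ) ≃ V)
    (he_mul : ∀ f g : WithConv (H →ₐ[GaloisRep.ratLocalizedAt p] AlgebraicClosure ℚ),
      e (f * g) = e f + e g)
    {m : ℕ} (hm : 0 < m) (hV : ∀ u : V, m • u = 0)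
    (A : ValuationSubring (AlgebraicClosure ℚ)) (hA : A.LiesOverPrime p) : AddSubgroup V where
  carrier := {w | Cong A (e.symm w) 1}
  zero_mem' := by
    show Cong A (e.symm 0) 1
    rw [symm_zero_of_mul e he_mul]; exact cong_refl A 1
  add_mem' := by
    intro a b ha hb
    show Cong A (e.symm (a + b)) 1
    rw [symm_add_of_mul e he_mul]
    exact Cong.mul_one A (algebraMap_ratLocalizedAt_mem hp A hA) ha hb
  neg_mem' := by
    intro a ha
    show Cong A (e.symm (-a)) 1
    have : e.symm (-a) = e.symm a ^ (m - 1) := by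
      apply e.injective
      rw [map_pow_of_mul e he_mul, e.apply_symm_apply, e.apply_symm_apply,
        neg_eq_smul_of_kill_nat hm hV]
    rw [this]
    exact Cong.pow_one A (algebraMap_ratLocalizedAt_mem hp A hA) ha _

theorem mem_connSubgroupN_iff (hp : p.Prime)
    (e : WithConv (H →ₐ[GaloisRep.ratLocalizedAt p] AlgebraicClosure ℚ) ≃ V)
    (he_mul : ∀ f g : WithConv (H →ₐ[GaloisRep.ratLocalizedAt p] AlgebraicClosure ℚ),
      e (f * g) = e f + e g)
    {m : ℕ} (hm : 0 < m) (hV : ∀ u : V, m • u = 0)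
    (A : ValuationSubring (AlgebraicClosure ℚ)) (hA : A.LiesOverPrime p) (w : V) :
    w ∈ connSubgroupN hp e he_mul hm hV A hA ↔
      ∀ h : H, A.valuation (e.symm w h -
        algebraMap (GaloisRep.ratLocalizedAt p) (AlgebraicClosure ℚ) (Coalgebra.counit h)) < 1 :=
  cong_one_iff A (e.symm w)

theorem mem_connSubgroupN_iff_cong (hp : p.Prime)
    (e : WithConv (H →ₐ[GaloisRep.ratLocalizedAt p] AlgebraicClosure ℚ) ≃ V)
    (he_mul : ∀ f g : WithConv (H →ₐ[GaloisRep.ratLocalizedAt p] AlgebraicClosure ℚ),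
      e (f * g) = e f + e g)
    {m : ℕ} (hm : 0 < m) (hV : ∀ u : V, m • u = 0)
    (A : ValuationSubring (AlgebraicClosure ℚ)) (hA : A.LiesOverPrime p) (w : V) :
    w ∈ connSubgroupN hp e he_mul hm hV A hA ↔ Cong A (e.symm w) 1 := Iff.rfl

/-- **`(I_A - 1) V ⊂ W`**. -/
theorem act_sub_mem_connSubgroupN (hp : p.Prime) (act : GQ → V → V)
    (e : WithConv (H →ₐ[GaloisRep.ratLocalizedAt p] AlgebraicClosure ℚ) ≃ V)
    (he_mul : ∀ f g : WithConv (H →ₐ[GaloisRep.ratLocalizedAt p] AlgebraicClosure ℚ),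
      e (f * g) = e f + e g)
    (he_equiv : ∀ (σ : AlgebraicClosure ℚ ≃ₐ[ℚ] AlgebraicClosure ℚ)
      (f g : WithConv (H →ₐ[GaloisRep.ratLocalizedAt p] AlgebraicClosure ℚ)),
      (∀ h : H, g h = σ (f h)) → e g = act σ (e f))
    {m : ℕ} (hm : 0 < m) (hV : ∀ u : V, m • u = 0)
    (A : ValuationSubring (AlgebraicClosure ℚ)) (hA : A.LiesOverPrime p)
    {σ : GQ} (hσ : σ ∈ A.inertiaSubgroupIn ℚ) (u : V) :
    act σ u - u ∈ connSubgroupN hp e he_mul hm hV A hA := by
  show Cong A (e.symm (act σ u - u)) 1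
  have hσR : ∀ r : GaloisRep.ratLocalizedAt p,
      σ (algebraMap (GaloisRep.ratLocalizedAt p) Qb r) = algebraMap (GaloisRep.ratLocalizedAt p) Qb r :=
    fun r => apply_algebraMap_ratLocalizedAt σ r
  have hpow : e.symm u ^ m = 1 := by
    apply e.injective
    rw [map_pow_of_mul e he_mul, hV, map_one_of_mul e he_mul]
  have hu' : e.symm (act σ u - u) = galAct σ hσR (e.symm u) * e.symm u ^ (m - 1) := by
    apply e.injective
    rw [e.apply_symm_apply, he_mul,
      he_equiv σ (e.symm u) _ fun h => galAct_apply σ hσR (e.symm u) h,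
      map_pow_of_mul e he_mul, e.apply_symm_apply, ← neg_eq_smul_of_kill_nat hm hV,
      sub_eq_add_neg]
  rw [hu']
  refine cong_galAct_mul A (algebraMap_ratLocalizedAt_mem hp A hA) hσ hσR ?_
  rw [← pow_succ', Nat.sub_add_cancel hm]
  exact hpow

/-- `W` is stable under the decomposition group of `A`. -/
theorem act_mem_connSubgroupN_iff (hp : p.Prime) (act : GQ → V → V)
    (e : WithConv (H →ₐ[GaloisRep.ratLocalizedAt p] AlgebraicClosure ℚ) ≃ V)
    (he_mul : ∀ f g : WithConv (H →ₐ[GaloisRep.ratLocalizedAt p] AlgebraicClosure ℚ),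
      e (f * g) = e f + e g)
    (he_equiv : ∀ (σ : AlgebraicClosure ℚ ≃ₐ[ℚ] AlgebraicClosure ℚ)
      (f g : WithConv (H →ₐ[GaloisRep.ratLocalizedAt p] AlgebraicClosure ℚ)),
      (∀ h : H, g h = σ (f h)) → e g = act σ (e f))
    {m : ℕ} (hm : 0 < m) (hV : ∀ u : V, m • u = 0)
    (A : ValuationSubring (AlgebraicClosure ℚ)) (hA : A.LiesOverPrime p)
    {σ : GQ} (hσ : σ ∈ A.decompositionSubgroup ℚ) (w : V) :
    act σ w ∈ connSubgroupN hp e he_mul hm hV A hA ↔
      w ∈ connSubgroupN hp e he_mul hm hV A hA := by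
  have hσR : ∀ r : GaloisRep.ratLocalizedAt p,
      σ (algebraMap (GaloisRep.ratLocalizedAt p) Qb r) = algebraMap (GaloisRep.ratLocalizedAt p) Qb r :=
    fun r => apply_algebraMap_ratLocalizedAt σ r
  have hact : e.symm (act σ w) = galAct σ hσR (e.symm w) := by
    apply e.injective
    rw [e.apply_symm_apply,
      he_equiv σ (e.symm w) _ fun h => galAct_apply σ hσR (e.symm w) h, e.apply_symm_apply]
  have hiff : ∀ a : Qb, A.valuation (σ a) < 1 ↔ A.valuation a < 1 := by
    intro a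
    rw [← A.mem_nonunits_iff, ← A.mem_nonunits_iff]
    by_cases ha : a = 0
    · subst ha; simp
    · have hσa : σ a ≠ 0 := by simpa using ha
      rw [Fermat.Agent.S05.mem_nonunits_iff_inv_notMem ha,
        Fermat.Agent.S05.mem_nonunits_iff_inv_notMem hσa, ← map_inv₀]
      exact not_congr
        ⟨Fermat.Agent.S05.mem_of_apply_mem_of_mem_decompositionSubgroup hσ,
          Fermat.Agent.S05.apply_mem_of_mem_decompositionSubgroup hσ⟩
  rw [mem_connSubgroupN_iff, mem_connSubgroupN_iff, hact]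
  refine forall_congr' fun h => ?_
  have key : σ (e.symm w h) - algebraMap (GaloisRep.ratLocalizedAt p) Qb (Coalgebra.counit h) =
      σ (e.symm w h - algebraMap (GaloisRep.ratLocalizedAt p) Qb (Coalgebra.counit h)) := by
    rw [map_sub, hσR]
  rw [galAct_apply, key]
  exact hiff _

/-- **`W^{I_A} = 0`**, `p ≥ 3`, level killed by `p ^ k`. -/
theorem eq_zero_of_mem_connSubgroupN_of_fixed (hp : p.Prime) (hp3 : 3 ≤ p)
    (act : GQ → V → V)
    (e : WithConv (H →ₐ[GaloisRep.ratLocalizedAt p] AlgebraicClosure ℚ) ≃ V)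
    (he_mul : ∀ f g : WithConv (H →ₐ[GaloisRep.ratLocalizedAt p] AlgebraicClosure ℚ),
      e (f * g) = e f + e g)
    (he_equiv : ∀ (σ : AlgebraicClosure ℚ ≃ₐ[ℚ] AlgebraicClosure ℚ)
      (f g : WithConv (H →ₐ[GaloisRep.ratLocalizedAt p] AlgebraicClosure ℚ)),
      (∀ h : H, g h = σ (f h)) → e g = act σ (e f))
    {k : ℕ} (hV : ∀ u : V, (p ^ k) • u = 0)
    (A : ValuationSubring (AlgebraicClosure ℚ)) (hA : A.LiesOverPrime p)
    {w : V} (hw : w ∈ connSubgroupN hp e he_mul (pow_pos hp.pos k) hV A hA)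
    (hfix : ∀ τ ∈ A.inertiaSubgroupIn ℚ, act τ w = w) : w = 0 := by
  have hR := algebraMap_ratLocalizedAt_mem hp A hA
  have hσR : ∀ (σ : GQ) (r : GaloisRep.ratLocalizedAt p),
      σ (algebraMap (GaloisRep.ratLocalizedAt p) Qb r) = algebraMap (GaloisRep.ratLocalizedAt p) Qb r :=
    fun σ r => apply_algebraMap_ratLocalizedAt σ r
  set x := e.symm w with hx
  have hxc : Cong A x 1 := hw
  have hxfix : ∀ σ ∈ A.inertiaSubgroupIn ℚ, galAct σ (hσR σ) x = x := by
    intro σ hσ
    apply e.injective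
    rw [he_equiv σ x _ fun h => galAct_apply σ (hσR σ) x h, hx, e.apply_symm_apply, hfix σ hσ]
  have hxpow : x ^ (p ^ k) = 1 := by
    apply e.injective
    rw [map_pow_of_mul e he_mul, hx, e.apply_symm_apply, hV, map_one_of_mul e he_mul]
  -- dévissage on the order
  have key : ∀ j : ℕ, ∀ y : WithConv (H →ₐ[GaloisRep.ratLocalizedAt p] Qb), Cong A y 1 →
      (∀ σ ∈ A.inertiaSubgroupIn ℚ, galAct σ (hσR σ) y = y) → y ^ (p ^ j) = 1 → y = 1 := by
    intro j
    induction j with
    | zero =>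
      intro y _ _ hy
      rwa [pow_zero, pow_one] at hy
    | succ j ih =>
      intro y hyc hyfix hy
      have h1 : y ^ p = 1 := by
        apply ih (y ^ p) (Cong.pow_one A hR hyc p)
        · intro σ hσ
          have hpowact : ∀ n : ℕ, galAct σ (hσR σ) (y ^ n) = galAct σ (hσR σ) y ^ n := by
            intro n
            induction n with
            | zero =>
              rw [pow_zero, pow_zero]
              apply WithConv.ext
              ext h
              show σ ((1 : WithConv (H →ₐ[GaloisRep.ratLocalizedAt p] Qb)) h) = _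
              rw [AlgHom.convOne_apply, hσR]
            | succ n ihn => rw [pow_succ, galAct_mul, ihn, pow_succ]
          rw [hpowact, hyfix σ hσ]
        · rw [← pow_mul, ← pow_succ']
          exact hy
      refine eq_one_of_cong_of_fixed A hp hp3 hA hR (fun σ _ r => hσR σ r) y h1 hyc ?_
      intro σ hσ h
      have := congrArg (fun c : WithConv (H →ₐ[GaloisRep.ratLocalizedAt p] Qb) => c h) (hyfix σ hσ)
      exact this
  have hx1 : x = 1 := key k x hxc hxfix hxpow
  have : w = e 1 := by rw [← hx1, hx, e.apply_symm_apply]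
  rw [this, map_one_of_mul e he_mul]

end Frozen

section CE

variable {p : ℕ} {H : Type} [CommRing H] [Bialgebra (GaloisRep.ratLocalizedAt p) H]
  [Coalgebra.IsCocomm (GaloisRep.ratLocalizedAt p) H]
  [Module.Finite (GaloisRep.ratLocalizedAt p) H] [Module.Free (GaloisRep.ratLocalizedAt p) H]
  {V : Type*} [AddCommGroup V] [Finite V]

/-- **(CE), frozen shape, level killed by `p ^ k`.**  `W` = connected points of
`V ≃ Hom_alg(H, ℚ̄)` at `A | p`, `p ≥ 3`.  If `w ∈ W` and `N ≤ V` is an inertia-stable subgroup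
containing `(σ - 1) w` for all `σ ∈ I_A`, then `w ∈ N`. -/
theorem mem_of_mem_connSubgroupN (hp : p.Prime) (hp3 : 3 ≤ p) (act : GQ → V → V)
    (e : WithConv (H →ₐ[GaloisRep.ratLocalizedAt p] AlgebraicClosure ℚ) ≃ V)
    (he_mul : ∀ f g : WithConv (H →ₐ[GaloisRep.ratLocalizedAt p] AlgebraicClosure ℚ),
      e (f * g) = e f + e g)
    (he_equiv : ∀ (σ : AlgebraicClosure ℚ ≃ₐ[ℚ] AlgebraicClosure ℚ)
      (f g : WithConv (H →ₐ[GaloisRep.ratLocalizedAt p] AlgebraicClosure ℚ)),
      (∀ h : H, g h = σ (f h)) → e g = act σ (e f))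
    {k : ℕ} (hV : ∀ u : V, (p ^ k) • u = 0)
    (A : ValuationSubring (AlgebraicClosure ℚ)) (hA : A.LiesOverPrime p)
    (N : AddSubgroup V) (hN : ∀ σ ∈ A.inertiaSubgroupIn ℚ, ∀ u ∈ N, act σ u ∈ N)
    {w : V} (hw : w ∈ connSubgroupN hp e he_mul (pow_pos hp.pos k) hV A hA)
    (hwN : ∀ σ ∈ A.inertiaSubgroupIn ℚ, act σ w - w ∈ N) : w ∈ N := by
  classical
  have : Fintype V := Fintype.ofFinite V
  let _ := algebraRatLoc hp A hA
  have : IsScalarTower (GaloisRep.ratLocalizedAt p) A Qb := isScalarTower_ratLoc hp A hA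
  have : IsDiscreteValuationRing (baseRing A) := isDiscreteValuationRing_baseRing A hp hA
  set b := Module.finBasis (GaloisRep.ratLocalizedAt p) H with hb
  have he1 : e 1 = 0 := map_one_of_mul e he_mul
  have hact : ∀ (σ : GQ) (m : WithConv (H →ₐ[GaloisRep.ratLocalizedAt p] Qb)),
      e (galAct σ (fun r => apply_algebraMap_ratLocalizedAt σ r) m) = act σ (e m) := fun σ m =>
    he_equiv σ m _ fun h => galAct_apply σ _ m h
  -- the finite group `N₁`
  set N₁ : Finset (WithConv (H →ₐ[GaloisRep.ratLocalizedAt p] Qb)) :=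
    (Finset.univ.filter (fun u : V => u ∈ N)).image e.symm with hN₁
  have hmemN₁ : ∀ m, m ∈ N₁ ↔ e m ∈ N := by
    intro m
    rw [hN₁, Finset.mem_image]
    constructor
    · rintro ⟨u, hu, rfl⟩
      rw [e.apply_symm_apply]
      exact (Finset.mem_filter.1 hu).2
    · intro hm
      exact ⟨e m, Finset.mem_filter.2 ⟨Finset.mem_univ _, hm⟩, e.symm_apply_apply m⟩
  have h1 : (1 : WithConv (H →ₐ[GaloisRep.ratLocalizedAt p] Qb)) ∈ N₁ := by
    rw [hmemN₁, he1]
    exact N.zero_mem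
  have hmul : ∀ m ∈ N₁, ∀ m' ∈ N₁, m * m' ∈ N₁ := by
    intro m hm m' hm'
    rw [hmemN₁] at hm hm' ⊢
    rw [he_mul]
    exact N.add_mem hm hm'
  have hinv : ∀ m ∈ N₁, ∃ m' ∈ N₁, m * m' = 1 := by
    intro m hm
    rw [hmemN₁] at hm
    refine ⟨e.symm (-e m), ?_, ?_⟩
    · rw [hmemN₁, e.apply_symm_apply]
      exact N.neg_mem hm
    · apply e.injective
      rw [he_mul, e.apply_symm_apply, add_neg_cancel, he1]
  set f : WithConv (H →ₐ[GaloisRep.ratLocalizedAt p] Qb) := e.symm w with hf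
  have hfp : f ^ (p ^ k) = 1 := by
    apply e.injective
    rw [map_pow_of_mul e he_mul, hf, e.apply_symm_apply, hV, he1]
  have hfm : ∀ i, f (b i) - algebraMap (GaloisRep.ratLocalizedAt p) Qb (Coalgebra.counit (b i)) ∈
      A.nonunits := by
    intro i
    rw [A.mem_nonunits_iff]
    exact (mem_connSubgroupN_iff hp e he_mul (pow_pos hp.pos k) hV A hA w).1 hw (b i)
  -- invariance of the coset sums
  set S : WithConv (H →ₗ[GaloisRep.ratLocalizedAt p] Qb) := ∑ m ∈ N₁, lin m with hS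
  have hSfix : ∀ σ ∈ A.inertiaSubgroupIn ℚ, mapConv (galAlgHom p σ) S = S := by
    intro σ hσ
    have hσ' : σ⁻¹ ∈ A.inertiaSubgroupIn ℚ := inv_mem hσ
    rw [hS, map_sum]
    refine Finset.sum_nbij'
      (fun m => galAct σ (fun r => apply_algebraMap_ratLocalizedAt σ r) m)
      (fun m => galAct σ⁻¹ (fun r => apply_algebraMap_ratLocalizedAt σ⁻¹ r) m)
      (fun m hm => ?_) (fun m hm => ?_) (fun m _ => galAct_inv_galAct σ m)
      (fun m _ => galAct_galAct_inv σ m) (fun m _ => mapConv_galAlgHom_lin σ m)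
    · rw [hmemN₁] at hm ⊢
      rw [hact]
      exact hN σ hσ _ hm
    · rw [hmemN₁] at hm ⊢
      rw [hact]
      exact hN σ⁻¹ hσ' _ hm
  have hFSfix : ∀ σ ∈ A.inertiaSubgroupIn ℚ, mapConv (galAlgHom p σ) (lin f * S) = lin f * S := by
    intro σ hσ
    set nσ : WithConv (H →ₐ[GaloisRep.ratLocalizedAt p] Qb) := e.symm (act σ w - w) with hnσ
    have hnσN : nσ ∈ N₁ := by
      rw [hmemN₁, hnσ, e.apply_symm_apply]
      exact hwN σ hσ
    have hσf : galAct σ (fun r => apply_algebraMap_ratLocalizedAt σ r) f = f * nσ := by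
      apply e.injective
      rw [hact, he_mul, hnσ, hf, e.apply_symm_apply, e.apply_symm_apply]
      abel
    obtain ⟨nσ', hnσ', hnn⟩ := hinv nσ hnσN
    rw [map_mul, hSfix σ hσ, mapConv_galAlgHom_lin, hσf, lin_mul, mul_assoc,
      lin_mul_sum_eq N₁ hmul hnσN hnσ' hnn]
  obtain ⟨S₁, hS₁⟩ := exists_rational_of_fixed b A S hSfix
  obtain ⟨S₂, hS₂⟩ := exists_rational_of_fixed b A (lin f * S) hFSfix
  have hS₂' : mapConv (IsScalarTower.toAlgHom (GaloisRep.ratLocalizedAt p) (inertiaField A) Qb) S₂ =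
      ∑ m ∈ N₁, lin (f * m) := by
    rw [hS₂, hS, Finset.mul_sum]
    exact Finset.sum_congr rfl fun m _ => (lin_mul f m).symm
  have key := mem_of_rational_coset_sums_pk (R₀ := baseRing A) b A hp hp3 k hA (fun r => r.2)
    (fun x hx => exists_eq_p_mul_of_mem_nonunits hp A hA x hx) N₁ h1 hmul hinv f hfp hfm S₁ S₂
    hS₁ hS₂'
  have := (hmemN₁ f).1 key
  rwa [hf, e.apply_symm_apply] at this

/-- **`W = (I_A - 1) V`**: the connected points are exactly the augmentation image of inertia. -/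
theorem connSubgroupN_eq_closure (hp : p.Prime) (hp3 : 3 ≤ p) (act : GQ → V → V)
    (e : WithConv (H →ₐ[GaloisRep.ratLocalizedAt p] AlgebraicClosure ℚ) ≃ V)
    (he_mul : ∀ f g : WithConv (H →ₐ[GaloisRep.ratLocalizedAt p] AlgebraicClosure ℚ),
      e (f * g) = e f + e g)
    (he_equiv : ∀ (σ : AlgebraicClosure ℚ ≃ₐ[ℚ] AlgebraicClosure ℚ)
      (f g : WithConv (H →ₐ[GaloisRep.ratLocalizedAt p] AlgebraicClosure ℚ)),
      (∀ h : H, g h = σ (f h)) → e g = act σ (e f))
    {k : ℕ} (hV : ∀ u : V, (p ^ k) • u = 0)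
    (A : ValuationSubring (AlgebraicClosure ℚ)) (hA : A.LiesOverPrime p) :
    connSubgroupN hp e he_mul (pow_pos hp.pos k) hV A hA =
      AddSubgroup.closure {u : V | ∃ σ ∈ A.inertiaSubgroupIn ℚ, ∃ u' : V, u = act σ u' - u'} := by
  apply le_antisymm
  · intro w hw
    have hadd := act_add_of_equiv act e he_mul he_equiv
    have hmulact := act_mul_of_equiv act e he_equiv
    have hzero : ∀ σ : GQ, act σ 0 = 0 := by
      intro σ
      have := hadd σ 0 0
      rw [add_zero] at this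
      exact left_eq_add.mp this
    have hneg : ∀ (σ : GQ) (u : V), act σ (-u) = -act σ u := by
      intro σ u
      have := hadd σ u (-u)
      rw [add_neg_cancel, hzero] at this
      exact (neg_eq_of_add_eq_zero_right this.symm).symm
    refine mem_of_mem_connSubgroupN hp hp3 act e he_mul he_equiv hV A hA _ ?_ hw ?_
    · intro σ hσ u hu
      induction hu using AddSubgroup.closure_induction with
      | mem u hu =>
        obtain ⟨τ, hτ, u', rfl⟩ := hu
        have h1 : act σ (act τ u' - u') = (act (σ * τ) u' - u') - (act σ u' - u') := by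
          rw [sub_eq_add_neg, hadd, hneg, hmulact]
          abel
        rw [h1]
        refine AddSubgroup.sub_mem _ (AddSubgroup.subset_closure ?_)
          (AddSubgroup.subset_closure ?_)
        · exact ⟨σ * τ, mul_mem hσ hτ, u', rfl⟩
        · exact ⟨σ, hσ, u', rfl⟩
      | zero => rw [hzero]; exact AddSubgroup.zero_mem _
      | add a b _ _ ha hb => rw [hadd]; exact AddSubgroup.add_mem _ ha hb
      | neg a _ ha => rw [hneg]; exact AddSubgroup.neg_mem _ ha
    · intro σ hσ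
      exact AddSubgroup.subset_closure ⟨σ, hσ, w, rfl⟩
  · rw [AddSubgroup.closure_le]
    rintro u ⟨σ, hσ, u', rfl⟩
    exact act_sub_mem_connSubgroupN hp act e he_mul he_equiv (pow_pos hp.pos k) hV A hA hσ u'

end CE

section IsFlatAt

/-- In a local ring with `p ∈ 𝔪`, every ideal of finite index contains a power of `p`. -/
theorem exists_pow_mem_of_finite_quotient {R : Type*} [CommRing R] [IsLocalRing R] {p : ℕ}
    (hpR : (p : R) ∈ IsLocalRing.maximalIdeal R) (I : Ideal R) (hI : Finite (R ⧸ I)) :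
    ∃ k : ℕ, ((p : R)) ^ k ∈ I := by
  by_cases htop : I = ⊤
  · exact ⟨0, by rw [htop]; exact Submodule.mem_top⟩
  have : Nontrivial (R ⧸ I) := Ideal.Quotient.nontrivial_iff.2 htop
  have : IsLocalRing (R ⧸ I) :=
    IsLocalRing.of_surjective' (Ideal.Quotient.mk I) Ideal.Quotient.mk_surjective
  have : IsArtinianRing (R ⧸ I) := inferInstance
  have hmem : (Ideal.Quotient.mk I (p : R)) ∈ IsLocalRing.maximalIdeal (R ⧸ I) := by
    rw [IsLocalRing.mem_maximalIdeal, mem_nonunits_iff]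
    intro hu
    have hloc : IsLocalHom (Ideal.Quotient.mk I) :=
      IsLocalHom.of_surjective _ Ideal.Quotient.mk_surjective
    exact ((IsLocalRing.mem_maximalIdeal _).1 hpR) (hloc.map_nonunit _ hu)
  have hnil : IsNilpotent (Ideal.Quotient.mk I (p : R)) := by
    have hJ := IsArtinianRing.isNilpotent_jacobson_bot (R := R ⧸ I)
    rw [IsLocalRing.jacobson_eq_maximalIdeal ⊥ bot_ne_top] at hJ
    obtain ⟨n, hn⟩ := hJ
    refine ⟨n, ?_⟩
    have := Ideal.pow_mem_pow hmem n
    rw [hn] at this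
    exact this
  obtain ⟨k, hk⟩ := hnil
  exact ⟨k, by rwa [← map_pow, Ideal.Quotient.eq_zero_iff_mem] at hk⟩

/-- **Connected–étale package for a flat deformation, any level** (`p ≥ 3`, `p ∈ 𝔪_R`, `I` of
finite index): the subgroup `W ⊂ V/IV` of connected points is stable under `D_A`, contains
`(σ - 1)u` for `σ ∈ I_A`, has no nonzero `I_A`-fixed element, and lies in every `I_A`-stable
subgroup `N` with `(I_A - 1) w ⊂ N`. -/
theorem exists_connSubgroup_of_isFlatAt_pk {R : Type} [CommRing R] [IsLocalRing R]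
    (ρ : GaloisRepAdic R) {p : ℕ} (hp : p.Prime) (hp3 : 3 ≤ p) (hflat : ρ.IsFlatAt p)
    (hpR : (p : R) ∈ IsLocalRing.maximalIdeal R)
    (I : Ideal R) (hI : Finite (R ⧸ I))
    (A : ValuationSubring (AlgebraicClosure ℚ)) (hA : A.LiesOverPrime p) :
    ∃ W : AddSubgroup (ρ.V ⧸ (I • (⊤ : Submodule R ρ.V))),
      (∀ σ ∈ A.decompositionSubgroup ℚ, ∀ w, ρ.levelAction I σ w ∈ W ↔ w ∈ W) ∧
      (∀ σ ∈ A.inertiaSubgroupIn ℚ, ∀ u, ρ.levelAction I σ u - u ∈ W) ∧
      (∀ w ∈ W, (∀ τ ∈ A.inertiaSubgroupIn ℚ, ρ.levelAction I τ w = w) → w = 0) ∧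
      (∀ N : AddSubgroup (ρ.V ⧸ (I • (⊤ : Submodule R ρ.V))),
        (∀ σ ∈ A.inertiaSubgroupIn ℚ, ∀ u ∈ N, ρ.levelAction I σ u ∈ N) →
        ∀ w ∈ W, (∀ σ ∈ A.inertiaSubgroupIn ℚ, ρ.levelAction I σ w - w ∈ N) → w ∈ N) := by
  obtain ⟨_, hH⟩ := hflat
  obtain ⟨H, _, _, hfin, hfl, hco, e, he_mul, he_equiv⟩ := hH I hI
  have := hfin
  have := hfl
  have := hco
  have : Fact p.Prime := ⟨hp⟩
  have : IsLocalRing (GaloisRep.ratLocalizedAt p) := Fermat.Agent.S28.isLocalRing_ratLocalizedAt p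
  have : Module.Free (GaloisRep.ratLocalizedAt p) H := Module.free_of_flat_of_isLocalRing
  have : Finite (ρ.V ⧸ (I • (⊤ : Submodule R ρ.V))) := finite_quot_smul_top I hI
  obtain ⟨k, hk⟩ := exists_pow_mem_of_finite_quotient hpR I hI
  have hV : ∀ u : ρ.V ⧸ (I • (⊤ : Submodule R ρ.V)), (p ^ k) • u = 0 := by
    intro u
    induction u using Submodule.Quotient.induction_on with
    | H x =>
      rw [← Submodule.Quotient.mk_smul, Submodule.Quotient.mk_eq_zero,
        ← Nat.cast_smul_eq_nsmul R, Nat.cast_pow]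
      exact Submodule.smul_mem_smul hk Submodule.mem_top
  refine ⟨connSubgroupN hp e he_mul (pow_pos hp.pos k) hV A hA, ?_, ?_, ?_, ?_⟩
  · intro σ hσ w
    exact act_mem_connSubgroupN_iff hp (fun σ u => ρ.levelAction I σ u) e he_mul he_equiv
      (pow_pos hp.pos k) hV A hA hσ w
  · intro σ hσ u
    exact act_sub_mem_connSubgroupN hp (fun σ u => ρ.levelAction I σ u) e he_mul he_equiv
      (pow_pos hp.pos k) hV A hA hσ u
  · intro w hw hfix
    exact eq_zero_of_mem_connSubgroupN_of_fixed hp hp3 (fun σ u => ρ.levelAction I σ u) e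
      he_mul he_equiv hV A hA hw hfix
  · intro N hN w hw hwN
    exact mem_of_mem_connSubgroupN hp hp3 (fun σ u => ρ.levelAction I σ u) e he_mul he_equiv
      hV A hA N hN hw hwN

end IsFlatAt

end Fermat.Agent.GS.Old
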