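import Mathlib
import Fermat.Agent.GP.Flat.ConnEt.OrdShape
import Fermat.Agent.GS.Old.OrdLevels
import Fermat.Agent.GS.Old.ConnPk

set_option autoImplicit false

/-!
# CELL-S / OLD : flat + residually ordinary shape ⟹ ordinary, adic coefficients

`R` a Noetherian local ring with finite quotients `R ⧸ 𝔪 ^ n`, `p ≥ 3` in `𝔪`, `ρ : GaloisRepAdic R`
flat at `p` (frozen `IsFlatAt`).  If at a place `P | p` the augmentation image `(I_P - 1) V` is,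
modulo `𝔪 V`, a line spanned by the image of some `v₀`, and is not zero, then
`L = R ∙ (σ₀ - 1) u₀` is a `D_P`-stable free rank one direct summand containing `(I_P - 1) V`:
the frozen `IsOrdinaryAt`.

Proof: at each finite level `I` the connected points `W ⊂ V/IV` (`ConnPk`) are exactly
`(I_P - 1)(V/IV)`, an `R`-submodule, and (CE) with `N = 𝔪 W` + Nakayama show that `W` is generated
by the image of `ñ = (σ₀ - 1) u₀`; Krull's intersection theorem passes to the limit.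
-/

open IsLocalRing

namespace Fermat.Agent.GS.Old

open Fermat.Agent.GP.Flat.ConnEt

local notation "GQ" => (AlgebraicClosure ℚ ≃ₐ[ℚ] AlgebraicClosure ℚ)

section Level

variable {R : Type} [CommRing R] [IsLocalRing R] (ρ : GaloisRepAdic R)

/-- **Level statement.**  Modulo `I V` (`I` of finite index), `(I_P - 1) V ⊂ R ñ` and `R ñ` is
`D_P`-stable, where `ñ = (σ₀ - 1) u₀ ∉ 𝔪 V`. -/
theorem level_span_of_isFlatAt {p : ℕ} (hp : p.Prime) (hp3 : 3 ≤ p)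
    (hpR : (p : R) ∈ maximalIdeal R) (hflat : ρ.IsFlatAt p)
    (I : Ideal R) (hI : Finite (R ⧸ I))
    (P : ValuationSubring (AlgebraicClosure ℚ)) (hP : P.LiesOverPrime p)
    (v₀ : ρ.V)
    (hv₀ : ∀ σ ∈ P.inertiaSubgroupIn ℚ, ∀ v : ρ.V, ∃ c : R,
      ρ.ρ σ v - v - c • v₀ ∈ maximalIdeal R • (⊤ : Submodule R ρ.V))
    {σ₀ : GQ} (hσ₀ : σ₀ ∈ P.inertiaSubgroupIn ℚ) (u₀ : ρ.V)
    (hu₀ : ρ.ρ σ₀ u₀ - u₀ ∉ maximalIdeal R • (⊤ : Submodule R ρ.V)) :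
    (∀ σ ∈ P.inertiaSubgroupIn ℚ, ∀ v : ρ.V, ∃ c : R,
      ρ.ρ σ v - v - c • (ρ.ρ σ₀ u₀ - u₀) ∈ I • (⊤ : Submodule R ρ.V)) ∧
    (∀ g ∈ P.decompositionSubgroup ℚ, ∃ c : R,
      ρ.ρ g (ρ.ρ σ₀ u₀ - u₀) - c • (ρ.ρ σ₀ u₀ - u₀) ∈ I • (⊤ : Submodule R ρ.V)) := by
  obtain ⟨W, hWD, hWI, -, hWce⟩ :=
    exists_connSubgroup_of_isFlatAt_pk ρ hp hp3 hflat hpR I hI P hP
  exact level_span_of_package ρ I hI P W hWD hWI hWce v₀ hv₀ hσ₀ u₀ hu₀

end Level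

section Adic

variable {R : Type} [CommRing R] [IsLocalRing R] [IsNoetherianRing R] (ρ : GaloisRepAdic R)

/-- **(ORD-SHAPE) at one place, adic coefficients.**  `ρ` flat at `p ≥ 3` over a Noetherian local
ring with finite residue field; if `(I_P - 1) V` is, modulo `𝔪 V`, a line spanned by the image of
`v₀`, and not zero, then it is a `D_P`-stable free rank one direct summand `R ∙ b 0`. -/
theorem exists_line_of_isFlatAt_adic {p : ℕ} (hp : p.Prime) (hp3 : 3 ≤ p)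
    (hpR : (p : R) ∈ maximalIdeal R) (hflat : ρ.IsFlatAt p)
    (P : ValuationSubring (AlgebraicClosure ℚ)) (hP : P.LiesOverPrime p)
    (v₀ : ρ.V)
    (hv₀ : ∀ σ ∈ P.inertiaSubgroupIn ℚ, ∀ v : ρ.V, ∃ c : R,
      ρ.ρ σ v - v - c • v₀ ∈ maximalIdeal R • (⊤ : Submodule R ρ.V))
    (hne : ∃ σ₀ ∈ P.inertiaSubgroupIn ℚ, ∃ v : ρ.V,
      ρ.ρ σ₀ v - v ∉ maximalIdeal R • (⊤ : Submodule R ρ.V)) :
    ∃ L : Submodule R ρ.V,
      (∃ b : Module.Basis (Fin 2) R ρ.V, L = R ∙ b 0) ∧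
      (∀ σ ∈ P.decompositionSubgroup ℚ, ∀ v ∈ L, ρ.ρ σ v ∈ L) ∧
      (∀ σ ∈ P.inertiaSubgroupIn ℚ, ∀ v : ρ.V, ρ.ρ σ v - v ∈ L) := by
  obtain ⟨σ₀, hσ₀, u₀, hu₀⟩ := hne
  set ñ : ρ.V := ρ.ρ σ₀ u₀ - u₀ with hñ
  have hres : Finite (R ⧸ maximalIdeal R) := hflat.1
  have hfin : ∀ n : ℕ, Finite (R ⧸ maximalIdeal R ^ n) := fun n =>
    Ideal.finite_quotient_pow (IsNoetherian.noetherian (maximalIdeal R)) n
  have hlev := fun n : ℕ =>
    level_span_of_isFlatAt ρ hp hp3 hpR hflat (maximalIdeal R ^ n) (hfin n) P hP v₀ hv₀ hσ₀ u₀ hu₀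
  obtain ⟨b, hb⟩ := exists_basis_zero_eq ρ.finrank_eq hu₀
  refine ⟨R ∙ ñ, ⟨b, by rw [hb]⟩, ?_, ?_⟩
  · intro g hg v hv
    obtain ⟨a, rfl⟩ := Submodule.mem_span_singleton.1 hv
    rw [map_smul]
    refine Submodule.smul_mem _ _ ?_
    exact mem_span_singleton_of_forall_pow ñ _ fun n => (hlev n).2 g hg
  · intro σ hσ v
    exact mem_span_singleton_of_forall_pow ñ _ fun n => (hlev n).1 σ hσ v

/-- **(ORD-SHAPE), adic coefficients.**  The frozen `IsOrdinaryAt` from flatness and the residual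
shape at every place above `p`. -/
theorem isOrdinaryAt_of_isFlatAt_adic {p : ℕ} (hp : p.Prime) (hp3 : 3 ≤ p)
    (hpR : (p : R) ∈ maximalIdeal R) (hflat : ρ.IsFlatAt p)
    (hshape : ∀ P : ValuationSubring (AlgebraicClosure ℚ), P.LiesOverPrime p →
      ∃ v₀ : ρ.V,
        (∀ σ ∈ P.inertiaSubgroupIn ℚ, ∀ v : ρ.V, ∃ c : R,
          ρ.ρ σ v - v - c • v₀ ∈ maximalIdeal R • (⊤ : Submodule R ρ.V)) ∧
        ∃ σ₀ ∈ P.inertiaSubgroupIn ℚ, ∃ v : ρ.V,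
          ρ.ρ σ₀ v - v ∉ maximalIdeal R • (⊤ : Submodule R ρ.V)) :
    ρ.IsOrdinaryAt p := by
  intro P hP
  obtain ⟨v₀, hv₀, hne⟩ := hshape P hP
  exact exists_line_of_isFlatAt_adic ρ hp hp3 hpR hflat P hP v₀ hv₀ hne

end Adic

end Fermat.Agent.GS.Old
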