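import Mathlib
import Fermat.Agent.GS.Old.OrdAdic

set_option autoImplicit false

/-!
# CELL-S / OLD : flat + residually ordinary ⟹ ordinary

The hypothesis `hshape` of `isOrdinaryAt_of_isFlatAt_adic` derived from the FROZEN residual
ordinarity `(GaloisRepAdic.ofResidualGaloisRep ρ.residual).IsOrdinaryAt p` together with the
non-triviality of inertia modulo `𝔪` (e.g. `det ρ(σ₀) ≢ 1 mod 𝔪` for some `σ₀ ∈ I_P`; automatic for
`det = ε`, `p` odd).

* `isOrdinaryAt_of_isFlatAt_of_residual`     : non-triviality in the form `(σ₀ - 1) v ∉ 𝔪 V`;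
* `isOrdinaryAt_of_isFlatAt_of_residual_det` : non-triviality in the form `det ρ(σ₀) - 1 ∉ 𝔪`.
-/

open IsLocalRing TensorProduct

namespace Fermat.Agent.GS.Old

section Tensor

variable {A : Type} [CommRing A] [IsLocalRing A] {M : Type} [AddCommGroup M] [Module A M]

/-- The kernel of `M → k ⊗ M` is `𝔪 M`. -/
theorem mem_smul_top_of_one_tmul_eq_zero (x : M)
    (h : (1 : ResidueField A) ⊗ₜ[A] x = 0) : x ∈ maximalIdeal A • (⊤ : Submodule A M) := by
  have h3 : (TensorProduct.quotTensorEquivQuotSMul M (maximalIdeal A))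
      ((1 : ResidueField A) ⊗ₜ[A] x) = Submodule.Quotient.mk ((1 : A) • x) :=
    TensorProduct.quotTensorEquivQuotSMul_mk_tmul (maximalIdeal A) 1 x
  have h2 : (TensorProduct.quotTensorEquivQuotSMul M (maximalIdeal A))
      ((1 : ResidueField A) ⊗ₜ[A] x) = 0 := by
    have := (TensorProduct.quotTensorEquivQuotSMul M (maximalIdeal A)).map_zero
    rw [← this]
    exact congrArg _ h
  rw [h3, one_smul, Submodule.Quotient.mk_eq_zero] at h2
  exact h2

theorem one_tmul_eq_zero_of_mem_smul_top (x : M)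
    (h : x ∈ maximalIdeal A • (⊤ : Submodule A M)) : (1 : ResidueField A) ⊗ₜ[A] x = 0 := by
  refine Submodule.smul_induction_on (p := fun x => (1 : ResidueField A) ⊗ₜ[A] x = 0) h
    (fun a ha y _ => ?_) (fun x y hx hy => ?_)
  · show (1 : ResidueField A) ⊗ₜ[A] (a • y) = 0
    rw [TensorProduct.tmul_smul, TensorProduct.smul_tmul', Algebra.smul_def,
      IsLocalRing.ResidueField.algebraMap_eq, (IsLocalRing.residue_eq_zero_iff a).mpr ha,
      zero_mul, TensorProduct.zero_tmul]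
  · show (1 : ResidueField A) ⊗ₜ[A] (x + y) = 0
    rw [TensorProduct.tmul_add, hx, hy, add_zero]

theorem residue_tmul (c : A) (x : M) :
    (IsLocalRing.residue A c) ⊗ₜ[A] x = (1 : ResidueField A) ⊗ₜ[A] (c • x) := by
  rw [TensorProduct.tmul_smul, TensorProduct.smul_tmul', Algebra.smul_def,
    IsLocalRing.ResidueField.algebraMap_eq, mul_one]

/-- Every element of `k ⊗ M` is of the form `1 ⊗ x`. -/
theorem exists_one_tmul_eq (y : ResidueField A ⊗[A] M) :
    ∃ x : M, (1 : ResidueField A) ⊗ₜ[A] x = y := by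
  induction y using TensorProduct.induction_on with
  | zero => exact ⟨0, TensorProduct.tmul_zero _ _⟩
  | tmul c x =>
    obtain ⟨c, rfl⟩ := IsLocalRing.residue_surjective c
    exact ⟨c • x, (residue_tmul c x).symm⟩
  | add y y' hy hy' =>
    obtain ⟨x, rfl⟩ := hy
    obtain ⟨x', rfl⟩ := hy'
    exact ⟨x + x', TensorProduct.tmul_add _ _ _⟩

end Tensor

section Residual

variable {R : Type} [CommRing R] [IsLocalRing R] [IsNoetherianRing R] (ρ : GaloisRepAdic R)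

omit [IsNoetherianRing R] in
/-- The residual shape from the frozen residual ordinarity. -/
theorem shape_of_residual_isOrdinaryAt {p : ℕ}
    (hres : (GaloisRepAdic.ofResidualGaloisRep ρ.residual).IsOrdinaryAt p)
    (P : ValuationSubring (AlgebraicClosure ℚ)) (hP : P.LiesOverPrime p) :
    ∃ v₀ : ρ.V, ∀ σ ∈ P.inertiaSubgroupIn ℚ, ∀ v : ρ.V, ∃ c : R,
      ρ.ρ σ v - v - c • v₀ ∈ maximalIdeal R • (⊤ : Submodule R ρ.V) := by
  obtain ⟨L, ⟨b, hL⟩, -, hI⟩ := hres P hP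
  obtain ⟨v₀, hv₀⟩ := exists_one_tmul_eq (A := R) (M := ρ.V) (b 0)
  refine ⟨v₀, fun σ hσ v => ?_⟩
  have h1 := hI σ hσ ((1 : ResidueField R) ⊗ₜ[R] v)
  rw [hL] at h1
  obtain ⟨c, hc⟩ := Submodule.mem_span_singleton.1 h1
  obtain ⟨c, rfl⟩ := IsLocalRing.residue_surjective c
  refine ⟨c, mem_smul_top_of_one_tmul_eq_zero _ ?_⟩
  have h2 : (GaloisRepAdic.ofResidualGaloisRep ρ.residual).ρ σ ((1 : ResidueField R) ⊗ₜ[R] v) =
      (1 : ResidueField R) ⊗ₜ[R] (ρ.ρ σ v) := LinearMap.baseChange_tmul _ _ _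
  rw [h2, ← hv₀] at hc
  have h3 : (IsLocalRing.residue R c) • ((1 : ResidueField R) ⊗ₜ[R] v₀) =
      (1 : ResidueField R) ⊗ₜ[R] (c • v₀) := by
    rw [TensorProduct.smul_tmul', smul_eq_mul, mul_one, residue_tmul]
  have hc' : (1 : ResidueField R) ⊗ₜ[R] (c • v₀) =
      (1 : ResidueField R) ⊗ₜ[R] (ρ.ρ σ v) - (1 : ResidueField R) ⊗ₜ[R] v := h3.symm.trans hc
  rw [TensorProduct.tmul_sub, TensorProduct.tmul_sub, hc', sub_self]

/-- **Flat + residually ordinary ⟹ ordinary** (`p ≥ 3`), non-triviality of inertia modulo `𝔪` in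
the form `(σ₀ - 1) v ∉ 𝔪 V`. -/
theorem isOrdinaryAt_of_isFlatAt_of_residual {p : ℕ} (hp : p.Prime) (hp3 : 3 ≤ p)
    (hpR : (p : R) ∈ maximalIdeal R) (hflat : ρ.IsFlatAt p)
    (hres : (GaloisRepAdic.ofResidualGaloisRep ρ.residual).IsOrdinaryAt p)
    (hnt : ∀ P : ValuationSubring (AlgebraicClosure ℚ), P.LiesOverPrime p →
      ∃ σ₀ ∈ P.inertiaSubgroupIn ℚ, ∃ v : ρ.V,
        ρ.ρ σ₀ v - v ∉ maximalIdeal R • (⊤ : Submodule R ρ.V)) :
    ρ.IsOrdinaryAt p := by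
  refine isOrdinaryAt_of_isFlatAt_adic ρ hp hp3 hpR hflat fun P hP => ?_
  obtain ⟨v₀, hv₀⟩ := shape_of_residual_isOrdinaryAt ρ hres P hP
  exact ⟨v₀, hv₀, hnt P hP⟩

omit [IsNoetherianRing R] in
/-- If `σ₀` acts trivially modulo `𝔪 V` then `det ρ(σ₀) ≡ 1` modulo `𝔪`. -/
theorem det_sub_one_mem_of_forall_mem
    (σ₀ : AlgebraicClosure ℚ ≃ₐ[ℚ] AlgebraicClosure ℚ)
    (h : ∀ v : ρ.V, ρ.ρ σ₀ v - v ∈ maximalIdeal R • (⊤ : Submodule R ρ.V)) :
    LinearMap.det (ρ.ρ σ₀) - 1 ∈ maximalIdeal R := by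
  have hbc : (ρ.ρ σ₀).baseChange (ResidueField R) = LinearMap.id := by
    apply LinearMap.ext
    intro y
    obtain ⟨x, rfl⟩ := exists_one_tmul_eq (A := R) (M := ρ.V) y
    rw [LinearMap.baseChange_tmul, LinearMap.id_apply]
    have := one_tmul_eq_zero_of_mem_smul_top (A := R) _ (h x)
    rw [TensorProduct.tmul_sub, sub_eq_zero] at this
    exact this
  have hdet := LinearMap.det_baseChange (A := ResidueField R) (ρ.ρ σ₀)
  rw [hbc, LinearMap.det_id] at hdet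
  rw [← Ideal.Quotient.eq_zero_iff_mem, map_sub, map_one, sub_eq_zero]
  exact hdet.symm

/-- **Flat + residually ordinary ⟹ ordinary** (`p ≥ 3`), non-triviality of inertia modulo `𝔪` in
the form `det ρ(σ₀) ≢ 1`. -/
theorem isOrdinaryAt_of_isFlatAt_of_residual_det {p : ℕ} (hp : p.Prime) (hp3 : 3 ≤ p)
    (hpR : (p : R) ∈ maximalIdeal R) (hflat : ρ.IsFlatAt p)
    (hres : (GaloisRepAdic.ofResidualGaloisRep ρ.residual).IsOrdinaryAt p)
    (hdet : ∀ P : ValuationSubring (AlgebraicClosure ℚ), P.LiesOverPrime p →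
      ∃ σ₀ ∈ P.inertiaSubgroupIn ℚ, LinearMap.det (ρ.ρ σ₀) - 1 ∉ maximalIdeal R) :
    ρ.IsOrdinaryAt p := by
  refine isOrdinaryAt_of_isFlatAt_of_residual ρ hp hp3 hpR hflat hres fun P hP => ?_
  obtain ⟨σ₀, hσ₀, hd⟩ := hdet P hP
  refine ⟨σ₀, hσ₀, ?_⟩
  by_contra hcon
  refine hd (det_sub_one_mem_of_forall_mem ρ σ₀ fun v => ?_)
  by_contra hv
  exact hcon ⟨v, hv⟩

end Residual

end Fermat.Agent.GS.Old
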