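/-
CELL-S / [S-OLD] (helper69): the ADIC consumer of the connected–étale package.

`R` a noetherian local ring, `ρ : GaloisRepAdic R`, `P | p`.  HYPOTHESIS FORM: at every level
`V / 𝔪ⁿ V` there is a subgroup `W` of "connected points" with the four properties (a) (b) (c) (CE)
of `GP/Flat/ConnEt/CEQbar.exists_connSubgroup_of_isFlatAt_ce` (that theorem is the case `p ∈ I`;
the `p ^ k`-port is `GS/Old/*`).  If the image of `(I_P - 1) V` in `V / 𝔪 V` is a line, then
`(I_P - 1) V` spans a free rank one direct summand `R ∙ b 0` of `V`, stable under `D_P`, with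
`I_P` acting trivially on the quotient: the frozen shape of `GaloisRepAdic.IsOrdinaryAt`.

Proof: at level `n` the submodule `W_n = (I_P - 1)(V/𝔪ⁿV)` is cyclic, generated by the image of
the SAME vector `ñ = ρ σ₀ u₀ - u₀` (Nakayama + (CE) with `N = 𝔪 W_n`, as in
`GP/Flat/ConnEt/OrdShape.exists_line_of_isFlatAt`); hence `(I_P - 1) V ⊂ ⋂ₙ (R ñ + 𝔪ⁿ V) = R ñ`
(Krull).  No completeness, no compatibility between the levels.
-/
import Mathlib
import Fermat.Agent.GP.Flat.ConnEt.OrdShape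

set_option autoImplicit false

namespace Fermat.Agent.GS.Old.OrdShapeAdic

open IsLocalRing

section Krull

variable {R : Type*} [CommRing R] [IsLocalRing R] [IsNoetherianRing R]
  {V : Type*} [AddCommGroup V] [Module R V] [Module.Finite R V]

/-- **Krull**: over a noetherian local ring a submodule `L` of a finite module is closed for the
`𝔪`-adic topology. -/
theorem mem_of_forall_mem_sup_pow_smul (L : Submodule R V) (x : V)
    (hx : ∀ n : ℕ, x ∈ L ⊔ (maximalIdeal R ^ n) • (⊤ : Submodule R V)) : x ∈ L := by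
  have hmk : ∀ n : ℕ, L.mkQ x ∈ (maximalIdeal R ^ n) • (⊤ : Submodule R (V ⧸ L)) := by
    intro n
    obtain ⟨y, hy, z, hz, hyz⟩ := Submodule.mem_sup.1 (hx n)
    have h1 : L.mkQ x = L.mkQ z := by
      rw [← hyz, map_add, Submodule.mkQ_apply, Submodule.mkQ_apply,
        (Submodule.Quotient.mk_eq_zero L).2 hy, zero_add]
    rw [h1]
    have h2 : (maximalIdeal R ^ n) • (⊤ : Submodule R (V ⧸ L)) =
        ((maximalIdeal R ^ n) • (⊤ : Submodule R V)).map L.mkQ := by
      rw [Submodule.map_smul'', Submodule.map_top, Submodule.range_mkQ]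
    rw [h2]
    exact Submodule.mem_map_of_mem hz
  have hbot : (⨅ i : ℕ, (maximalIdeal R ^ i) • (⊤ : Submodule R (V ⧸ L))) = ⊥ :=
    Ideal.iInf_pow_smul_eq_bot_of_isLocalRing (maximalIdeal R) (Ideal.IsPrime.ne_top inferInstance)
  have h0 : L.mkQ x ∈ (⨅ i : ℕ, (maximalIdeal R ^ i) • (⊤ : Submodule R (V ⧸ L))) :=
    (Submodule.mem_iInf _).2 hmk
  rw [hbot, Submodule.mem_bot] at h0
  exact (Submodule.Quotient.mk_eq_zero L).1 h0

end Krull

variable {R : Type} [CommRing R] [IsLocalRing R]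

/-- **The per-level connected–étale package** at the level `I` and the place `A`: the conclusion
of `GP/Flat/ConnEt/CEQbar.exists_connSubgroup_of_isFlatAt_ce`, verbatim. -/
def LevelPackage (ρ : GaloisRepAdic R) (I : Ideal R)
    (A : ValuationSubring (AlgebraicClosure ℚ)) : Prop :=
  ∃ W : AddSubgroup (ρ.V ⧸ (I • (⊤ : Submodule R ρ.V))),
    (∀ σ ∈ A.decompositionSubgroup ℚ, ∀ w, ρ.levelAction I σ w ∈ W ↔ w ∈ W) ∧
    (∀ σ ∈ A.inertiaSubgroupIn ℚ, ∀ u, ρ.levelAction I σ u - u ∈ W) ∧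
    (∀ w ∈ W, (∀ τ ∈ A.inertiaSubgroupIn ℚ, ρ.levelAction I τ w = w) → w = 0) ∧
    (∀ N : AddSubgroup (ρ.V ⧸ (I • (⊤ : Submodule R ρ.V))),
      (∀ σ ∈ A.inertiaSubgroupIn ℚ, ∀ u ∈ N, ρ.levelAction I σ u ∈ N) →
      ∀ w ∈ W, (∀ σ ∈ A.inertiaSubgroupIn ℚ, ρ.levelAction I σ w - w ∈ N) → w ∈ N)

/-- the package of `GP/Flat/ConnEt/CEQbar` (levels containing `p`) in this vocabulary. -/
theorem levelPackage_of_isFlatAt_of_mem (ρ : GaloisRepAdic R) {p : ℕ} (hp : p.Prime)
    (hp3 : 3 ≤ p) (hflat : ρ.IsFlatAt p) (I : Ideal R) (hI : Finite (R ⧸ I))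
    (hpI : (p : R) ∈ I) (A : ValuationSubring (AlgebraicClosure ℚ)) (hA : A.LiesOverPrime p) :
    LevelPackage ρ I A :=
  Fermat.Agent.GP.Flat.ConnEt.exists_connSubgroup_of_isFlatAt_ce ρ hp hp3 hflat I hI hpI A hA

section Level

variable [IsNoetherianRing R] (ρ : GaloisRepAdic R)

/-- **One level.**  From the package at the level `I` and the residual shape: the subgroup of
connected points at the level `I` is the cyclic module spanned by the image of
`ñ = ρ σ₀ u₀ - u₀`, for ANY `σ₀ ∈ I_P`, `u₀` with `ñ ∉ 𝔪 V`. -/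
theorem exists_conn_eq_span (I : Ideal R) (P : ValuationSubring (AlgebraicClosure ℚ))
    (hpack : LevelPackage ρ I P) (v₀ : ρ.V)
    (hv₀ : ∀ σ ∈ P.inertiaSubgroupIn ℚ, ∀ v : ρ.V, ∃ c : R,
      ρ.ρ σ v - v - c • v₀ ∈ maximalIdeal R • (⊤ : Submodule R ρ.V))
    (σ₀ : AlgebraicClosure ℚ ≃ₐ[ℚ] AlgebraicClosure ℚ) (hσ₀ : σ₀ ∈ P.inertiaSubgroupIn ℚ)
    (u₀ : ρ.V) (hu₀ : ρ.ρ σ₀ u₀ - u₀ ∉ maximalIdeal R • (⊤ : Submodule R ρ.V)) :
    ∃ N : Submodule R (ρ.V ⧸ (I • (⊤ : Submodule R ρ.V))),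
      N = R ∙ (I • (⊤ : Submodule R ρ.V)).mkQ (ρ.ρ σ₀ u₀ - u₀) ∧
      (∀ σ ∈ P.decompositionSubgroup ℚ, ∀ w, ρ.levelAction I σ w ∈ N ↔ w ∈ N) ∧
      (∀ σ ∈ P.inertiaSubgroupIn ℚ, ∀ u, ρ.levelAction I σ u - u ∈ N) := by
  classical
  obtain ⟨W, hWD, hWI, -, hWce⟩ := hpack
  set π : ρ.V →ₗ[R] ρ.V ⧸ (I • (⊤ : Submodule R ρ.V)) := (I • (⊤ : Submodule R ρ.V)).mkQ with hπ
  have hπsurj : Function.Surjective π := Submodule.mkQ_surjective _
  have hπact : ∀ (σ : AlgebraicClosure ℚ ≃ₐ[ℚ] AlgebraicClosure ℚ) (v : ρ.V),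
      ρ.levelAction I σ (π v) = π (ρ.ρ σ v) := fun σ v => rfl
  set G := ρ.V ⧸ (I • (⊤ : Submodule R ρ.V)) with hG
  set 𝔪G : Submodule R G := maximalIdeal R • (⊤ : Submodule R G) with h𝔪G
  have hπ𝔪 : ∀ x ∈ maximalIdeal R • (⊤ : Submodule R ρ.V), π x ∈ 𝔪G := by
    intro x hx
    have : 𝔪G = (maximalIdeal R • (⊤ : Submodule R ρ.V)).map π := by
      rw [h𝔪G, Submodule.map_smul'', Submodule.map_top, hπ, Submodule.range_mkQ]
    rw [this]
    exact Submodule.mem_map_of_mem hx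
  -- the generators
  set S : Set G := {u | ∃ σ ∈ P.inertiaSubgroupIn ℚ, ∃ u' : G, u = ρ.levelAction I σ u' - u'}
    with hS
  have hSW : S ⊆ W := by
    rintro _ ⟨σ, hσ, u', rfl⟩
    exact hWI σ hσ u'
  -- `W` is the closure of `S`
  have hWcl : W = AddSubgroup.closure S := by
    apply le_antisymm
    · intro w hw
      refine hWce (AddSubgroup.closure S) ?_ w hw ?_
      · intro σ hσ u hu
        have : ρ.levelAction I σ u = u + (ρ.levelAction I σ u - u) := by abel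
        rw [this]
        exact AddSubgroup.add_mem _ hu (AddSubgroup.subset_closure ⟨σ, hσ, u, rfl⟩)
      · intro σ hσ
        exact AddSubgroup.subset_closure ⟨σ, hσ, w, rfl⟩
    · rw [AddSubgroup.closure_le]
      exact hSW
  -- `W` is an `R`-submodule
  have hsmul : ∀ (c : R) (w : G), w ∈ W → c • w ∈ W := by
    intro c w hw
    rw [hWcl] at hw
    induction hw using AddSubgroup.closure_induction with
    | mem u hu =>
      obtain ⟨σ, hσ, u', rfl⟩ := hu
      have : c • (ρ.levelAction I σ u' - u') = ρ.levelAction I σ (c • u') - c • u' := by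
        rw [smul_sub, map_smul]
      rw [this]
      exact hWI σ hσ _
    | zero => rw [smul_zero]; exact W.zero_mem
    | add a b _ _ ha hb => rw [smul_add]; exact W.add_mem ha hb
    | neg a _ ha => rw [smul_neg]; exact W.neg_mem ha
  set N : Submodule R G :=
    { carrier := W
      add_mem' := W.add_mem
      zero_mem' := W.zero_mem
      smul_mem' := hsmul } with hN
  have hmemN : ∀ w, w ∈ N ↔ w ∈ W := fun w => Iff.rfl
  have hIN : ∀ σ ∈ P.inertiaSubgroupIn ℚ, ∀ u ∈ N, ρ.levelAction I σ u ∈ N := by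
    intro σ hσ u hu
    have : ρ.levelAction I σ u = u + (ρ.levelAction I σ u - u) := by abel
    rw [this]
    exact N.add_mem hu (hWI σ hσ u)
  -- (CE) with `N₁ = 𝔪 N`
  have hinter : N ⊓ 𝔪G ≤ maximalIdeal R • N := by
    rintro w ⟨hwN, hw𝔪⟩
    refine hWce (maximalIdeal R • N).toAddSubgroup ?_ w hwN ?_
    · intro σ hσ u hu
      change u ∈ maximalIdeal R • N at hu
      show ρ.levelAction I σ u ∈ maximalIdeal R • N
      refine Submodule.smul_induction_on
        (p := fun u => ρ.levelAction I σ u ∈ maximalIdeal R • N) hu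
        (fun a ha y hy => ?_) (fun x y hx hy => ?_)
      · show ρ.levelAction I σ (a • y) ∈ maximalIdeal R • N
        rw [map_smul]
        exact Submodule.smul_mem_smul ha (hIN σ hσ y hy)
      · show ρ.levelAction I σ (x + y) ∈ maximalIdeal R • N
        rw [map_add]
        exact Submodule.add_mem _ hx hy
    · intro σ hσ
      show ρ.levelAction I σ w - w ∈ maximalIdeal R • N
      have hw𝔪' : w ∈ maximalIdeal R • (⊤ : Submodule R G) := hw𝔪
      refine Submodule.smul_induction_on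
        (p := fun u => ρ.levelAction I σ u - u ∈ maximalIdeal R • N) hw𝔪'
        (fun a ha y _ => ?_) (fun x y hx hy => ?_)
      · show ρ.levelAction I σ (a • y) - a • y ∈ maximalIdeal R • N
        have : ρ.levelAction I σ (a • y) - a • y = a • (ρ.levelAction I σ y - y) := by
          rw [map_smul, smul_sub]
        rw [this]
        exact Submodule.smul_mem_smul ha (hWI σ hσ y)
      · show ρ.levelAction I σ (x + y) - (x + y) ∈ maximalIdeal R • N
        have : ρ.levelAction I σ (x + y) - (x + y) =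
            (ρ.levelAction I σ x - x) + (ρ.levelAction I σ y - y) := by
          rw [map_add]; abel
        rw [this]
        exact Submodule.add_mem _ hx hy
  -- the generator
  set ñ : ρ.V := ρ.ρ σ₀ u₀ - u₀ with hñ
  have hñN : π ñ ∈ N := by
    have : π ñ = ρ.levelAction I σ₀ (π u₀) - π u₀ := by rw [hπact, hñ, map_sub]
    rw [this]
    exact hWI σ₀ hσ₀ (π u₀)
  obtain ⟨c₀, hc₀⟩ := hv₀ σ₀ hσ₀ u₀
  have hc₀u : IsUnit c₀ := by
    by_contra hnu
    apply hu₀
    have h1 : c₀ • v₀ ∈ maximalIdeal R • (⊤ : Submodule R ρ.V) :=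
      Submodule.smul_mem_smul ((IsLocalRing.mem_maximalIdeal _).2 hnu) Submodule.mem_top
    have := (maximalIdeal R • (⊤ : Submodule R ρ.V)).add_mem hc₀ h1
    rwa [sub_add_cancel] at this
  set T : Submodule R G := (R ∙ π ñ) ⊔ 𝔪G with hT
  have hñT : π ñ ∈ T := Submodule.mem_sup_left (Submodule.mem_span_singleton_self _)
  have hv₀T : π v₀ ∈ T := by
    obtain ⟨u, hu⟩ := hc₀u
    have h1 : c₀ • π v₀ ∈ T := by
      have : c₀ • π v₀ = π ñ - π (ñ - c₀ • v₀) := by
        rw [map_sub π ñ (c₀ • v₀), map_smul]; abel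
      rw [this]
      exact T.sub_mem hñT (Submodule.mem_sup_right (hπ𝔪 _ hc₀))
    have : π v₀ = (↑u⁻¹ : R) • (c₀ • π v₀) := by
      rw [← hu, smul_smul, Units.inv_mul, one_smul]
    rw [this]
    exact T.smul_mem _ h1
  have hST : ∀ σ ∈ P.inertiaSubgroupIn ℚ, ∀ g : G, ρ.levelAction I σ g - g ∈ T := by
    intro σ hσ g
    obtain ⟨v, rfl⟩ := hπsurj g
    obtain ⟨c, hc⟩ := hv₀ σ hσ v
    have : ρ.levelAction I σ (π v) - π v = π (ρ.ρ σ v - v - c • v₀) + c • π v₀ := by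
      rw [hπact, map_sub, map_sub, map_smul]; abel
    rw [this]
    exact T.add_mem (Submodule.mem_sup_right (hπ𝔪 _ hc)) (T.smul_mem _ hv₀T)
  have hNT : N ≤ T := by
    intro w hw
    rw [hmemN, hWcl] at hw
    induction hw using AddSubgroup.closure_induction with
    | mem u hu =>
      obtain ⟨σ, hσ, u', rfl⟩ := hu
      exact hST σ hσ u'
    | zero => exact T.zero_mem
    | add a b _ _ ha hb => exact T.add_mem ha hb
    | neg a _ ha => exact T.neg_mem ha
  have hñle : (R ∙ π ñ) ≤ N := by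
    rw [Submodule.span_singleton_le_iff_mem]
    exact hñN
  have hNak : N ≤ (R ∙ π ñ) ⊔ maximalIdeal R • N := by
    intro x hx
    obtain ⟨y, hy, z, hz, hyz⟩ := Submodule.mem_sup.1 (hNT hx)
    have hzN : z ∈ N := by
      have : z = x - y := by rw [← hyz]; abel
      rw [this]
      exact N.sub_mem hx (hñle hy)
    rw [← hyz]
    exact Submodule.add_mem_sup hy (hinter ⟨hzN, hz⟩)
  have hNfg : N.FG := IsNoetherian.noetherian N
  have hNle : N ≤ R ∙ π ñ :=
    Submodule.le_of_le_smul_of_le_jacobson_bot hNfg (IsLocalRing.maximalIdeal_le_jacobson ⊥) hNak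
  have hNeq : N = R ∙ π ñ := le_antisymm hNle hñle
  exact ⟨N, hNeq, fun σ hσ w => hWD σ hσ w, fun σ hσ u => hWI σ hσ u⟩

/-- **(ORD-SHAPE), adic form, at one place.**  `R` noetherian local; the per-level package at
every level `𝔪ⁿ`; if `(I_P - 1) V` is, modulo `𝔪 V`, a line spanned by the image of `v₀`, and not
zero, then it spans a `D_P`-stable free rank one direct summand `R ∙ b 0`. -/
theorem exists_line_of_levels (P : ValuationSubring (AlgebraicClosure ℚ))
    (hlev : ∀ n : ℕ, LevelPackage ρ (maximalIdeal R ^ n) P) (v₀ : ρ.V)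
    (hv₀ : ∀ σ ∈ P.inertiaSubgroupIn ℚ, ∀ v : ρ.V, ∃ c : R,
      ρ.ρ σ v - v - c • v₀ ∈ maximalIdeal R • (⊤ : Submodule R ρ.V))
    (hne : ∃ σ₀ ∈ P.inertiaSubgroupIn ℚ, ∃ v : ρ.V,
      ρ.ρ σ₀ v - v ∉ maximalIdeal R • (⊤ : Submodule R ρ.V)) :
    ∃ L : Submodule R ρ.V,
      (∃ b : Module.Basis (Fin 2) R ρ.V, L = R ∙ b 0) ∧
      (∀ σ ∈ P.decompositionSubgroup ℚ, ∀ v ∈ L, ρ.ρ σ v ∈ L) ∧
      (∀ σ ∈ P.inertiaSubgroupIn ℚ, ∀ v : ρ.V, ρ.ρ σ v - v ∈ L) := by
  classical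
  obtain ⟨σ₀, hσ₀, u₀, hu₀⟩ := hne
  set ñ : ρ.V := ρ.ρ σ₀ u₀ - u₀ with hñ
  -- membership at a level, pulled back to `V`
  have hpull : ∀ (n : ℕ) (x : ρ.V),
      ((maximalIdeal R ^ n) • (⊤ : Submodule R ρ.V)).mkQ x ∈
        R ∙ ((maximalIdeal R ^ n) • (⊤ : Submodule R ρ.V)).mkQ ñ →
      x ∈ (R ∙ ñ) ⊔ (maximalIdeal R ^ n) • (⊤ : Submodule R ρ.V) := by
    intro n x hx
    obtain ⟨c, hc⟩ := Submodule.mem_span_singleton.1 hx
    have h0 : ((maximalIdeal R ^ n) • (⊤ : Submodule R ρ.V)).mkQ (x - c • ñ) = 0 := by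
      rw [map_sub, map_smul, hc, sub_self]
    have h1 : x - c • ñ ∈ (maximalIdeal R ^ n) • (⊤ : Submodule R ρ.V) :=
      (Submodule.Quotient.mk_eq_zero _).1 h0
    have : x = c • ñ + (x - c • ñ) := by abel
    rw [this]
    exact Submodule.add_mem_sup (Submodule.smul_mem _ _ (Submodule.mem_span_singleton_self ñ)) h1
  obtain ⟨b, hb⟩ := Fermat.Agent.GP.Flat.ConnEt.exists_basis_zero_eq ρ.finrank_eq hu₀
  refine ⟨R ∙ ñ, ⟨b, by rw [hb]⟩, ?_, ?_⟩
  · -- `D_P`-stability: at every level by (a), then Krull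
    intro σ hσ v hv
    obtain ⟨c, rfl⟩ := Submodule.mem_span_singleton.1 hv
    rw [map_smul]
    refine Submodule.smul_mem _ _ ?_
    refine mem_of_forall_mem_sup_pow_smul (R ∙ ñ) (ρ.ρ σ ñ) fun n => ?_
    obtain ⟨N, hNeq, hND, -⟩ :=
      exists_conn_eq_span ρ (maximalIdeal R ^ n) P (hlev n) v₀ hv₀ σ₀ hσ₀ u₀ hu₀
    apply hpull n
    rw [← hNeq]
    have h1 : ((maximalIdeal R ^ n) • (⊤ : Submodule R ρ.V)).mkQ ñ ∈ N := by
      rw [hNeq]
      exact Submodule.mem_span_singleton_self _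
    exact (hND σ hσ _).2 h1
  · -- `(I_P - 1) V ⊂ R ñ`: at every level by (b) + the cyclicity, then Krull
    intro σ hσ v
    refine mem_of_forall_mem_sup_pow_smul (R ∙ ñ) (ρ.ρ σ v - v) fun n => ?_
    obtain ⟨N, hNeq, -, hNI⟩ :=
      exists_conn_eq_span ρ (maximalIdeal R ^ n) P (hlev n) v₀ hv₀ σ₀ hσ₀ u₀ hu₀
    apply hpull n
    rw [← hNeq]
    have := hNI σ hσ (((maximalIdeal R ^ n) • (⊤ : Submodule R ρ.V)).mkQ v)
    rwa [map_sub]

/-- **(ORD-SHAPE), adic form.**  The frozen `IsOrdinaryAt` over a noetherian local ring from the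
per-level packages and the residual shape at every place above `p`. -/
theorem isOrdinaryAt_of_levels {p : ℕ}
    (hlev : ∀ P : ValuationSubring (AlgebraicClosure ℚ), P.LiesOverPrime p →
      ∀ n : ℕ, LevelPackage ρ (maximalIdeal R ^ n) P)
    (hshape : ∀ P : ValuationSubring (AlgebraicClosure ℚ), P.LiesOverPrime p →
      ∃ v₀ : ρ.V,
        (∀ σ ∈ P.inertiaSubgroupIn ℚ, ∀ v : ρ.V, ∃ c : R,
          ρ.ρ σ v - v - c • v₀ ∈ maximalIdeal R • (⊤ : Submodule R ρ.V)) ∧
        ∃ σ₀ ∈ P.inertiaSubgroupIn ℚ, ∃ v : ρ.V,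
          ρ.ρ σ₀ v - v ∉ maximalIdeal R • (⊤ : Submodule R ρ.V)) :
    ρ.IsOrdinaryAt p := by
  intro P hP
  obtain ⟨v₀, hv₀, hne⟩ := hshape P hP
  exact exists_line_of_levels ρ P (hlev P hP) v₀ hv₀ hne

/-- the levels `𝔪ⁿ` have finite index when the residue field is finite. -/
theorem finite_quotient_maximalIdeal_pow_of_finite_residueField [Finite (ResidueField R)]
    (n : ℕ) : Finite (R ⧸ maximalIdeal R ^ n) := by
  have : Finite (R ⧸ maximalIdeal R) := ‹Finite (ResidueField R)›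
  exact Ideal.finite_quotient_pow (IsNoetherian.noetherian _) n

/-- **(ORD-SHAPE), adic form, plug.**  If the connected–étale package is available at EVERY level
of finite index (this is what the `p ^ k`-port of `GP/Flat/ConnEt` proves for a representation
flat at `p ≥ 3` with `p ∈ 𝔪_R`), the residual shape gives the frozen `IsOrdinaryAt`. -/
theorem isOrdinaryAt_of_packages [Finite (ResidueField R)] {p : ℕ}
    (hpack : ∀ (I : Ideal R), Finite (R ⧸ I) →
      ∀ P : ValuationSubring (AlgebraicClosure ℚ), P.LiesOverPrime p → LevelPackage ρ I P)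
    (hshape : ∀ P : ValuationSubring (AlgebraicClosure ℚ), P.LiesOverPrime p →
      ∃ v₀ : ρ.V,
        (∀ σ ∈ P.inertiaSubgroupIn ℚ, ∀ v : ρ.V, ∃ c : R,
          ρ.ρ σ v - v - c • v₀ ∈ maximalIdeal R • (⊤ : Submodule R ρ.V)) ∧
        ∃ σ₀ ∈ P.inertiaSubgroupIn ℚ, ∃ v : ρ.V,
          ρ.ρ σ₀ v - v ∉ maximalIdeal R • (⊤ : Submodule R ρ.V)) :
    ρ.IsOrdinaryAt p :=
  isOrdinaryAt_of_levels ρ
    (fun P hP n => hpack _ (finite_quotient_maximalIdeal_pow_of_finite_residueField n) P hP)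
    hshape

end Level

end Fermat.Agent.GS.Old.OrdShapeAdic
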