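import Mathlib
import Fermat.Agent.GS.Old.CeTransfer

set_option autoImplicit false

/-!
# CELL-S / ALG : dévissage of (CE) along multiplication by `p`

`HasCE` (no `I`-trivial subquotient) for `W'` follows from `HasCE` for `W₁ ⊇ W'[p]` and for
`W ⊇ p W'`.  Consequently, for a family `W k` of `I`-stable subgroups with `W 0 = ⊥`,
`p (W (k+1)) ⊂ W k` and `(W (k+1))[p] ⊂ W 1`, (CE) for `W 1` implies (CE) for every `W k`
(for `[F]` of the GATE-S design: `W k = M⁰_k`).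
-/

namespace Fermat.Agent.GS.Old

variable {G : Type*} {M : Type*} [AddCommGroup M]

/-- **Dévissage step.** -/
theorem HasCE.of_devissage {I : Set G} {act : G → M → M} {W₁ W W' : AddSubgroup M} (p : ℕ)
    (hadd : ∀ g ∈ I, ∀ x y, act g (x + y) = act g x + act g y)
    (hst₁ : ∀ g ∈ I, ∀ x ∈ W₁, act g x ∈ W₁) (hst : ∀ g ∈ I, ∀ x ∈ W, act g x ∈ W)
    (hst' : ∀ g ∈ I, ∀ x ∈ W', act g x ∈ W')
    (hpW : ∀ w ∈ W', p • w ∈ W) (htors : ∀ w ∈ W', p • w = 0 → w ∈ W₁)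
    (h₁ : HasCE I act W₁) (h : HasCE I act W) : HasCE I act W' := by
  have hnsmul : ∀ g ∈ I, ∀ x : M, act g (p • x) = p • act g x := fun g hg x =>
    map_nsmul (AddMonoidHom.mk' (act g) (hadd g hg)) p x
  rw [hasCE_iff_noTrivSubquot hadd hst'] 
  rw [hasCE_iff_noTrivSubquot hadd hst₁] at h₁
  rw [hasCE_iff_noTrivSubquot hadd hst] at h
  intro Y₁ Y₂ h21 h1W hY₂ htriv
  -- Step 1: `p Y₁ ≤ p Y₂`
  have hstep1 : Y₁.map (nsmulAddMonoidHom p) ≤ Y₂.map (nsmulAddMonoidHom p) := by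
    refine h _ _ (AddSubgroup.map_mono h21) ?_ ?_ ?_
    · rintro _ ⟨y, hy, rfl⟩
      exact hpW y (h1W hy)
    · rintro g hg _ ⟨y, hy, rfl⟩
      refine ⟨act g y, hY₂ g hg y hy, ?_⟩
      show p • act g y = act g (p • y)
      rw [hnsmul g hg]
    · rintro g hg _ ⟨y, hy, rfl⟩
      refine ⟨act g y - y, htriv g hg y hy, ?_⟩
      show p • (act g y - y) = act g (p • y) - p • y
      rw [hnsmul g hg, smul_sub]
  -- Step 2: the `p`-torsion
  let Z₁ : AddSubgroup M := Y₁ ⊓ (nsmulAddMonoidHom p : M →+ M).ker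
  let Z₂ : AddSubgroup M := Y₂ ⊓ (nsmulAddMonoidHom p : M →+ M).ker
  have hstep2 : Z₁ ≤ Z₂ := by
    refine h₁ Z₁ Z₂ (inf_le_inf_right _ h21) ?_ ?_ ?_
    · rintro z ⟨hz1, hz2⟩
      exact htors z (h1W hz1) hz2
    · rintro g hg z ⟨hz1, hz2⟩
      refine ⟨hY₂ g hg z hz1, ?_⟩
      show p • act g z = 0
      have hz2' : p • z = 0 := hz2
      rw [← hnsmul g hg, hz2', act_zero_of_add (hadd g hg)]
    · rintro g hg z ⟨hz1, hz2⟩
      refine ⟨htriv g hg z hz1, ?_⟩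
      show p • (act g z - z) = 0
      have hz2' : p • z = 0 := hz2
      rw [smul_sub, ← hnsmul g hg, hz2', act_zero_of_add (hadd g hg), sub_zero]
  -- Step 3
  intro y hy
  obtain ⟨y₂, hy₂, hpy⟩ := hstep1 ⟨y, hy, rfl⟩
  have hpy' : p • y₂ = p • y := hpy
  have hz : y - y₂ ∈ Z₁ := by
    refine ⟨Y₁.sub_mem hy (h21 hy₂), ?_⟩
    show p • (y - y₂) = 0
    rw [smul_sub, hpy', sub_self]
  have := (hstep2 hz).1
  have h3 : y = (y - y₂) + y₂ := by abel
  rw [h3]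
  exact Y₂.add_mem this hy₂

/-- **Dévissage for a `p`-power family.** -/
theorem hasCE_family {I : Set G} {act : G → M → M} (W : ℕ → AddSubgroup M) (p : ℕ)
    (hadd : ∀ g ∈ I, ∀ x y, act g (x + y) = act g x + act g y)
    (hst : ∀ k, ∀ g ∈ I, ∀ x ∈ W k, act g x ∈ W k)
    (h0 : W 0 = ⊥) (hpW : ∀ k, ∀ w ∈ W (k + 1), p • w ∈ W k)
    (htors : ∀ k, ∀ w ∈ W (k + 1), p • w = 0 → w ∈ W 1)
    (h₁ : HasCE I act (W 1)) (k : ℕ) : HasCE I act (W k) := by
  induction k with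
  | zero =>
    intro N _ w hw _
    rw [h0, AddSubgroup.mem_bot] at hw
    rw [hw]
    exact N.zero_mem
  | succ k ih =>
    exact HasCE.of_devissage p hadd (hst 1) (hst k) (hst (k + 1)) (hpW k) (htors k) h₁ ih

end Fermat.Agent.GS.Old
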