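import Mathlib
import Fermat.Agent.GS.Old.OrdLevels
import Fermat.Agent.GS.Old.CeTransfer

set_option autoImplicit false

/-!
# CELL-S / ALG : the frozen `IsOrdinaryAt` from subquotient data

Glue between `[SUBQ]` + `[F]` + `(NU)` of the GATE-S design and `OrdLevels.isOrdinaryAt_of_levels`:
if at every level `𝔪 ^ n` the module `V/𝔪ⁿV` is an equivariant subquotient of a finite power of
some `(M, act)` (helper47's `IsSubquotPow`), and `M₀ ≤ M` is an `I_P`-stable subgroup containing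
`(I_P - 1) M` with (CE) (= no `I_P`-trivial subquotient), then the augmentation subgroup
`W_n = ⟨(σ - 1) u : σ ∈ I_P⟩ ≤ V/𝔪ⁿV` is a level package; with the residual shape this gives the
frozen `IsOrdinaryAt`.
-/

open IsLocalRing

namespace Fermat.Agent.GS.Old

open Fermat.Agent.GH.S32

local notation "GQ" => (AlgebraicClosure ℚ ≃ₐ[ℚ] AlgebraicClosure ℚ)

section Conj

variable {K L : Type*} [Field K] [Field L] [Algebra K L]

/-- The inertia group (inside the whole Galois group) is normalised by the decomposition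
group. -/
theorem conj_mem_inertiaSubgroupIn_of_mem_decomposition {A : ValuationSubring L}
    {i τ : L ≃ₐ[K] L} (hi : i ∈ A.inertiaSubgroupIn K) (hτ : τ ∈ A.decompositionSubgroup K) :
    τ * i * τ⁻¹ ∈ A.inertiaSubgroupIn K := by
  unfold ValuationSubring.inertiaSubgroupIn at hi ⊢
  rw [Subgroup.mem_map] at hi ⊢
  obtain ⟨i', hi', hii⟩ := hi
  have hn : (A.inertiaSubgroup K).Normal := by
    unfold ValuationSubring.inertiaSubgroup
    exact MonoidHom.normal_ker _
  have h1 := hn.conj_mem i' hi' ⟨τ, hτ⟩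
  refine ⟨_, h1, ?_⟩
  rw [map_mul, map_mul, map_inv, hii]
  rfl

end Conj

section Level

variable {R : Type} [CommRing R] [IsLocalRing R] (ρ : GaloisRepAdic R)

theorem levelAction_mul (I : Ideal R) (σ τ : GQ)
    (u : ρ.V ⧸ (I • (⊤ : Submodule R ρ.V))) :
    ρ.levelAction I (σ * τ) u = ρ.levelAction I σ (ρ.levelAction I τ u) := by
  induction u using Submodule.Quotient.induction_on with
  | H x =>
    show Submodule.Quotient.mk (ρ.ρ (σ * τ) x) = Submodule.Quotient.mk (ρ.ρ σ (ρ.ρ τ x))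
    rw [map_mul]
    rfl

theorem levelAction_one (I : Ideal R) (u : ρ.V ⧸ (I • (⊤ : Submodule R ρ.V))) :
    ρ.levelAction I 1 u = u := by
  induction u using Submodule.Quotient.induction_on with
  | H x =>
    show Submodule.Quotient.mk (ρ.ρ 1 x) = Submodule.Quotient.mk x
    rw [map_one]
    rfl

/-- The augmentation subgroup of inertia at a finite level is stable under the decomposition
group. -/
theorem levelAction_mem_augSubgroup (I : Ideal R) (P : ValuationSubring (AlgebraicClosure ℚ))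
    {g : GQ} (hg : g ∈ P.decompositionSubgroup ℚ) (w : ρ.V ⧸ (I • (⊤ : Submodule R ρ.V)))
    (hw : w ∈ augSubgroup (P.inertiaSubgroupIn ℚ : Set GQ) (fun σ u => ρ.levelAction I σ u)) :
    ρ.levelAction I g w ∈
      augSubgroup (P.inertiaSubgroupIn ℚ : Set GQ) (fun σ u => ρ.levelAction I σ u) := by
  unfold augSubgroup at hw ⊢
  induction hw using AddSubgroup.closure_induction with
  | mem u hu =>
    obtain ⟨σ, hσ, u', rfl⟩ := hu
    refine AddSubgroup.subset_closure ⟨g * σ * g⁻¹,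
      conj_mem_inertiaSubgroupIn_of_mem_decomposition hσ hg, ρ.levelAction I g u', ?_⟩
    show ρ.levelAction I g (ρ.levelAction I σ u' - u') =
      ρ.levelAction I (g * σ * g⁻¹) (ρ.levelAction I g u') - ρ.levelAction I g u'
    rw [map_sub, levelAction_mul, levelAction_mul, ← levelAction_mul ρ I g⁻¹ g, inv_mul_cancel,
      levelAction_one]
  | zero => rw [map_zero]; exact AddSubgroup.zero_mem _
  | add a b _ _ ha hb => rw [map_add]; exact AddSubgroup.add_mem _ ha hb
  | neg a _ ha => rw [map_neg]; exact AddSubgroup.neg_mem _ ha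

/-- **Level package from subquotient data.** -/
theorem level_package_of_isSubquotPow (I : Ideal R) (P : ValuationSubring (AlgebraicClosure ℚ))
    {M : Type*} [AddCommGroup M] (act : GQ → M → M)
    (hsq : IsSubquotPow act (fun σ u => ρ.levelAction I σ u))
    (hadd : ∀ σ ∈ P.inertiaSubgroupIn ℚ, ∀ x y, act σ (x + y) = act σ x + act σ y)
    (M₀ : AddSubgroup M) (hst : ∀ σ ∈ P.inertiaSubgroupIn ℚ, ∀ x ∈ M₀, act σ x ∈ M₀)
    (hU : ∀ σ ∈ P.inertiaSubgroupIn ℚ, ∀ x : M, act σ x - x ∈ M₀)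
    (hCE : HasCE (P.inertiaSubgroupIn ℚ : Set GQ) act M₀) :
    ∃ W : AddSubgroup (ρ.V ⧸ (I • (⊤ : Submodule R ρ.V))),
      (∀ σ ∈ P.decompositionSubgroup ℚ, ∀ w, ρ.levelAction I σ w ∈ W ↔ w ∈ W) ∧
      (∀ σ ∈ P.inertiaSubgroupIn ℚ, ∀ u, ρ.levelAction I σ u - u ∈ W) ∧
      (∀ N : AddSubgroup (ρ.V ⧸ (I • (⊤ : Submodule R ρ.V))),
        (∀ σ ∈ P.inertiaSubgroupIn ℚ, ∀ u ∈ N, ρ.levelAction I σ u ∈ N) →
        ∀ w ∈ W, (∀ σ ∈ P.inertiaSubgroupIn ℚ, ρ.levelAction I σ w - w ∈ N) → w ∈ N) := by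
  refine ⟨augSubgroup (P.inertiaSubgroupIn ℚ : Set GQ) (fun σ u => ρ.levelAction I σ u),
    ?_, ?_, ?_⟩
  · intro σ hσ w
    constructor
    · intro h
      have := levelAction_mem_augSubgroup ρ I P (inv_mem hσ) _ h
      rwa [← levelAction_mul, inv_mul_cancel, levelAction_one] at this
    · exact levelAction_mem_augSubgroup ρ I P hσ w
  · intro σ hσ u
    exact AddSubgroup.subset_closure ⟨σ, hσ, u, rfl⟩
  · exact hasCE_augSubgroup_of_isSubquotPow hsq (fun σ hσ => hadd σ hσ) M₀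
      (fun σ hσ => hst σ hσ) (fun σ hσ => hU σ hσ) hCE

end Level

section Adic

variable {R : Type} [CommRing R] [IsLocalRing R] [IsNoetherianRing R] (ρ : GaloisRepAdic R)

/-- **Frozen `IsOrdinaryAt` from subquotient data at every level and every place above `p`.** -/
theorem isOrdinaryAt_of_isSubquotPow {p : ℕ}
    (hfin : ∀ n : ℕ, Finite (R ⧸ maximalIdeal R ^ n))
    (hshape : ∀ P : ValuationSubring (AlgebraicClosure ℚ), P.LiesOverPrime p →
      ∃ v₀ : ρ.V,
        (∀ σ ∈ P.inertiaSubgroupIn ℚ, ∀ v : ρ.V, ∃ c : R,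
          ρ.ρ σ v - v - c • v₀ ∈ maximalIdeal R • (⊤ : Submodule R ρ.V)) ∧
        ∃ σ₀ ∈ P.inertiaSubgroupIn ℚ, ∃ v : ρ.V,
          ρ.ρ σ₀ v - v ∉ maximalIdeal R • (⊤ : Submodule R ρ.V))
    (hsub : ∀ P : ValuationSubring (AlgebraicClosure ℚ), P.LiesOverPrime p → ∀ n : ℕ,
      ∃ (M : Type) (_ : AddCommGroup M) (act : GQ → M → M) (M₀ : AddSubgroup M),
        IsSubquotPow act (fun σ u => ρ.levelAction (maximalIdeal R ^ n) σ u) ∧
        (∀ σ ∈ P.inertiaSubgroupIn ℚ, ∀ x y, act σ (x + y) = act σ x + act σ y) ∧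
        (∀ σ ∈ P.inertiaSubgroupIn ℚ, ∀ x ∈ M₀, act σ x ∈ M₀) ∧
        (∀ σ ∈ P.inertiaSubgroupIn ℚ, ∀ x : M, act σ x - x ∈ M₀) ∧
        HasCE (P.inertiaSubgroupIn ℚ : Set GQ) act M₀) :
    ρ.IsOrdinaryAt p := by
  refine isOrdinaryAt_of_levels ρ hfin fun P hP => ⟨hshape P hP, fun n => ?_⟩
  obtain ⟨M, _, act, M₀, hsq, hadd, hst, hU, hCE⟩ := hsub P hP n
  exact level_package_of_isSubquotPow ρ (maximalIdeal R ^ n) P act hsq hadd M₀ hst hU hCE

end Adic

end Fermat.Agent.GS.Old
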