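/-
CELL-S / [S-OLD] (helper14): the subgroup of CONNECTED points for points killed by `p ^ k`.

`p ^ k`-port of `GP/Flat/AugConn.lean` (that file is in the frozen S56 closure; this is a NEW file).
For the points `V ≃ Hom_alg(H, ℚ̄)` of a finite bialgebra over `R₀ ⊂ A` (`A | p`), killed by some
`m ≥ 1`:

* `connSubgroupM` : the subgroup `W ⊂ V` of points congruent to the counit modulo `𝔪_A`;
* `act_sub_mem_connSubgroupM` / `aug_le_connSubgroupM` : `(I_A - 1)V ⊂ W`;
* `act_mem_connSubgroupM_iff` : `W` is stable under the decomposition group `D_A`;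
* `act_add_of_equiv`, `act_nsmul_of_equiv` : the transported action is additive;
* `eq_zero_of_cong_of_fixed_of_smul` : an `I_A`-fixed connected point `w` with `p • w = 0` is `0`
  (`p ≥ 3`; no hypothesis on the other points);
* `eq_zero_of_mem_connSubgroupM_of_fixed` : `W^{I_A} = 0` when `m = p ^ k` (dévissage);
* frozen-shape (`GaloisRep.ratLocalizedAt p`) forms and the `GaloisRepAdic.IsFlatAt` package
  `exists_connSubgroup_of_isFlatAt_pow` (`p ^ k ∈ I`) /
  `exists_connSubgroup_of_isFlatAt_of_mem_maximalIdeal` (every `I` of finite index, `p ∈ 𝔪_R`).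
-/
import Mathlib
import Fermat.Agent.GP.Flat.AugConn

set_option autoImplicit false
set_option linter.unusedSectionVars false

open Fermat.Agent.Common_helper32
open Coalgebra WithConv

namespace Fermat.Agent.GS.Old.AugConnPk

open Fermat.Agent.GP.Flat.LemmaF Fermat.Agent.GP.Flat.AugInv Fermat.Agent.GP.Flat.AugConn

section Base

variable {R₀ : Type*} [CommRing R₀] {H : Type*} [CommRing H] [Bialgebra R₀ H]
variable [Algebra R₀ Qb] (A : ValuationSubring Qb) [Module.Finite R₀ H]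

/-- the valuation of `A`. -/
local notation "v" => A.valuation

/-- `σ` as an `R₀`-algebra endomorphism of `ℚ̄`, when it fixes the image of `R₀`. -/
noncomputable def galAlg (σ : GQ) (hσ : ∀ r : R₀, σ (algebraMap R₀ Qb r) = algebraMap R₀ Qb r) :
    Qb →ₐ[R₀] Qb :=
  { (σ : Qb →+* Qb) with commutes' := hσ }

theorem galAct_eq_comp (σ : GQ) (hσ : ∀ r : R₀, σ (algebraMap R₀ Qb r) = algebraMap R₀ Qb r)
    (f : WithConv (H →ₐ[R₀] Qb)) :
    galAct σ hσ f = toConv ((galAlg σ hσ).comp f.ofConv) := rfl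

/-- the Galois action on points is multiplicative for the convolution product. -/
theorem galAct_mul (σ : GQ) (hσ : ∀ r : R₀, σ (algebraMap R₀ Qb r) = algebraMap R₀ Qb r)
    (f g : WithConv (H →ₐ[R₀] Qb)) :
    galAct σ hσ (f * g) = galAct σ hσ f * galAct σ hσ g := by
  rw [galAct_eq_comp, galAct_eq_comp, galAct_eq_comp, AlgHom.comp_convMul_distrib]

variable {V : Type*} [AddCommGroup V] (e : WithConv (H →ₐ[R₀] Qb) ≃ V)

theorem neg_eq_smul_of_kill {m : ℕ} (hm : 0 < m) (hV : ∀ u : V, m • u = 0) (u : V) :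
    -u = (m - 1) • u := by
  have h1 : (m - 1) • u + u = 0 := by
    rw [← succ_nsmul, Nat.sub_add_cancel hm]
    exact hV u
  exact (eq_neg_of_add_eq_zero_left h1).symm

theorem symm_neg_of_mul {m : ℕ} (hm : 0 < m) (he_mul : ∀ f g, e (f * g) = e f + e g)
    (hV : ∀ u : V, m • u = 0) (a : V) : e.symm (-a) = e.symm a ^ (m - 1) := by
  apply e.injective
  rw [map_pow_of_mul e he_mul, e.apply_symm_apply, e.apply_symm_apply,
    neg_eq_smul_of_kill hm hV]

/-- **The subgroup of connected points** `W = {w : e⁻¹ w ≡ ε mod 𝔪_A}`, for `V` killed by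
`m ≥ 1`. -/
def connSubgroupM {m : ℕ} (hm : 0 < m) (hR : ∀ r : R₀, algebraMap R₀ Qb r ∈ A)
    (he_mul : ∀ f g, e (f * g) = e f + e g) (hV : ∀ u : V, m • u = 0) : AddSubgroup V where
  carrier := {w | Cong A (e.symm w) 1}
  zero_mem' := by
    show Cong A (e.symm 0) 1
    rw [symm_zero_of_mul e he_mul]; exact cong_refl A 1
  add_mem' := by
    intro a b ha hb
    show Cong A (e.symm (a + b)) 1
    rw [symm_add_of_mul e he_mul]; exact Cong.mul_one A hR ha hb
  neg_mem' := by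
    intro a ha
    show Cong A (e.symm (-a)) 1
    rw [symm_neg_of_mul e hm he_mul hV]; exact Cong.pow_one A hR ha _

theorem mem_connSubgroupM_iff_cong {m : ℕ} (hm : 0 < m)
    (hR : ∀ r : R₀, algebraMap R₀ Qb r ∈ A)
    (he_mul : ∀ f g, e (f * g) = e f + e g) (hV : ∀ u : V, m • u = 0) (w : V) :
    w ∈ connSubgroupM A e hm hR he_mul hV ↔ Cong A (e.symm w) 1 := Iff.rfl

theorem mem_connSubgroupM_iff {m : ℕ} (hm : 0 < m) (hR : ∀ r : R₀, algebraMap R₀ Qb r ∈ A)
    (he_mul : ∀ f g, e (f * g) = e f + e g) (hV : ∀ u : V, m • u = 0) (w : V) :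
    w ∈ connSubgroupM A e hm hR he_mul hV ↔
      ∀ h, v (e.symm w h - algebraMap R₀ Qb (Coalgebra.counit h)) < 1 :=
  cong_one_iff A (e.symm w)

variable (act : GQ → V → V)

/-- **`(I_A - 1) V ⊂ W`**: inertia acts trivially on `V / W`. -/
theorem act_sub_mem_connSubgroupM {m : ℕ} (hm : 0 < m)
    (hR : ∀ r : R₀, algebraMap R₀ Qb r ∈ A)
    (hσR : ∀ (σ : GQ) (r : R₀), σ (algebraMap R₀ Qb r) = algebraMap R₀ Qb r)
    (he_mul : ∀ f g, e (f * g) = e f + e g)
    (he_equiv : ∀ (σ : GQ) (f g : WithConv (H →ₐ[R₀] Qb)),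
      (∀ h, g h = σ (f h)) → e g = act σ (e f))
    (hV : ∀ u : V, m • u = 0) {σ : GQ} (hσ : σ ∈ A.inertiaSubgroupIn ℚ) (u : V) :
    act σ u - u ∈ connSubgroupM A e hm hR he_mul hV := by
  show Cong A (e.symm (act σ u - u)) 1
  have hpow : e.symm u ^ m = 1 := by
    apply e.injective
    rw [map_pow_of_mul e he_mul, hV, map_one_of_mul e he_mul]
  have hu' : e.symm (act σ u - u) = galAct σ (hσR σ) (e.symm u) * e.symm u ^ (m - 1) := by
    apply e.injective
    rw [e.apply_symm_apply, he_mul,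
      he_equiv σ (e.symm u) _ fun h => galAct_apply σ (hσR σ) (e.symm u) h,
      map_pow_of_mul e he_mul, e.apply_symm_apply, ← neg_eq_smul_of_kill hm hV, sub_eq_add_neg]
  rw [hu']
  refine cong_galAct_mul A hR hσ (hσR σ) ?_
  rw [← pow_succ', Nat.sub_add_cancel hm]
  exact hpow

theorem aug_le_connSubgroupM {m : ℕ} (hm : 0 < m)
    (hR : ∀ r : R₀, algebraMap R₀ Qb r ∈ A)
    (hσR : ∀ (σ : GQ) (r : R₀), σ (algebraMap R₀ Qb r) = algebraMap R₀ Qb r)
    (he_mul : ∀ f g, e (f * g) = e f + e g)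
    (he_equiv : ∀ (σ : GQ) (f g : WithConv (H →ₐ[R₀] Qb)),
      (∀ h, g h = σ (f h)) → e g = act σ (e f))
    (hV : ∀ u : V, m • u = 0) :
    AddSubgroup.closure {u : V | ∃ σ ∈ A.inertiaSubgroupIn ℚ, ∃ u' : V, u = act σ u' - u'} ≤
      connSubgroupM A e hm hR he_mul hV := by
  rw [AddSubgroup.closure_le]
  rintro u ⟨σ, hσ, u', rfl⟩
  exact act_sub_mem_connSubgroupM A e act hm hR hσR he_mul he_equiv hV hσ u'

/-- the transported action is additive. -/
theorem act_add_of_equiv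
    (hσR : ∀ (σ : GQ) (r : R₀), σ (algebraMap R₀ Qb r) = algebraMap R₀ Qb r)
    (he_mul : ∀ f g, e (f * g) = e f + e g)
    (he_equiv : ∀ (σ : GQ) (f g : WithConv (H →ₐ[R₀] Qb)),
      (∀ h, g h = σ (f h)) → e g = act σ (e f))
    (σ : GQ) (u u' : V) : act σ (u + u') = act σ u + act σ u' := by
  have hact : ∀ x : WithConv (H →ₐ[R₀] Qb), e (galAct σ (hσR σ) x) = act σ (e x) := fun x =>
    he_equiv σ x _ fun h => galAct_apply σ (hσR σ) x h
  obtain ⟨f, rfl⟩ := e.surjective u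
  obtain ⟨g, rfl⟩ := e.surjective u'
  rw [← he_mul, ← hact, ← hact, ← hact, galAct_mul, he_mul]

theorem act_zero_of_equiv
    (hσR : ∀ (σ : GQ) (r : R₀), σ (algebraMap R₀ Qb r) = algebraMap R₀ Qb r)
    (he_mul : ∀ f g, e (f * g) = e f + e g)
    (he_equiv : ∀ (σ : GQ) (f g : WithConv (H →ₐ[R₀] Qb)),
      (∀ h, g h = σ (f h)) → e g = act σ (e f))
    (σ : GQ) : act σ 0 = 0 := by
  have h := act_add_of_equiv e act hσR he_mul he_equiv σ 0 0
  rw [add_zero] at h
  exact left_eq_add.mp h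

theorem act_nsmul_of_equiv
    (hσR : ∀ (σ : GQ) (r : R₀), σ (algebraMap R₀ Qb r) = algebraMap R₀ Qb r)
    (he_mul : ∀ f g, e (f * g) = e f + e g)
    (he_equiv : ∀ (σ : GQ) (f g : WithConv (H →ₐ[R₀] Qb)),
      (∀ h, g h = σ (f h)) → e g = act σ (e f))
    (σ : GQ) (n : ℕ) (u : V) : act σ (n • u) = n • act σ u := by
  induction n with
  | zero => rw [zero_smul, zero_smul, act_zero_of_equiv e act hσR he_mul he_equiv]
  | succ n ih => rw [succ_nsmul, succ_nsmul, act_add_of_equiv e act hσR he_mul he_equiv, ih]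

/-- **An `I_A`-fixed connected point of order `p` is trivial** (`p ≥ 3`); no hypothesis on the
other points of `V`. -/
theorem eq_zero_of_cong_of_fixed_of_smul {p : ℕ} (hp : p.Prime) (hp3 : 3 ≤ p)
    (hA : (p : Qb) ∈ A.nonunits) (hR : ∀ r : R₀, algebraMap R₀ Qb r ∈ A)
    (hσR : ∀ (σ : GQ) (r : R₀), σ (algebraMap R₀ Qb r) = algebraMap R₀ Qb r)
    (he_mul : ∀ f g, e (f * g) = e f + e g)
    (he_equiv : ∀ (σ : GQ) (f g : WithConv (H →ₐ[R₀] Qb)),
      (∀ h, g h = σ (f h)) → e g = act σ (e f))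
    {w : V} (hw : Cong A (e.symm w) 1) (hpw : p • w = 0)
    (hfix : ∀ τ ∈ A.inertiaSubgroupIn ℚ, act τ w = w) : w = 0 := by
  have hpow : e.symm w ^ p = 1 := by
    apply e.injective
    rw [map_pow_of_mul e he_mul, e.apply_symm_apply, hpw, map_one_of_mul e he_mul]
  have hfix' : ∀ σ ∈ A.inertiaSubgroupIn ℚ, ∀ h, σ (e.symm w h) = e.symm w h := by
    intro σ hσ h
    have h1 : galAct σ (hσR σ) (e.symm w) = e.symm w := by
      apply e.injective
      rw [he_equiv σ (e.symm w) _ fun h => galAct_apply σ (hσR σ) (e.symm w) h,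
        e.apply_symm_apply, hfix σ hσ]
    rw [← galAct_apply σ (hσR σ), h1]
  have hx : e.symm w = 1 :=
    eq_one_of_cong_of_fixed A hp hp3 hA hR (fun σ _ r => hσR σ r) (e.symm w) hpow hw hfix'
  have : w = e 1 := by rw [← hx, e.apply_symm_apply]
  rw [this, map_one_of_mul e he_mul]

/-- **`W^{I_A} = 0`** for points killed by `p ^ k`, `p ≥ 3` (dévissage). -/
theorem eq_zero_of_mem_connSubgroupM_of_fixed {p k : ℕ} (hp : p.Prime) (hp3 : 3 ≤ p)
    (hA : (p : Qb) ∈ A.nonunits) (hR : ∀ r : R₀, algebraMap R₀ Qb r ∈ A)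
    (hσR : ∀ (σ : GQ) (r : R₀), σ (algebraMap R₀ Qb r) = algebraMap R₀ Qb r)
    (he_mul : ∀ f g, e (f * g) = e f + e g)
    (he_equiv : ∀ (σ : GQ) (f g : WithConv (H →ₐ[R₀] Qb)),
      (∀ h, g h = σ (f h)) → e g = act σ (e f))
    (hV : ∀ u : V, p ^ k • u = 0) {w : V}
    (hw : w ∈ connSubgroupM A e (pow_pos hp.pos k) hR he_mul hV)
    (hfix : ∀ τ ∈ A.inertiaSubgroupIn ℚ, act τ w = w) : w = 0 := by
  have key : ∀ (j : ℕ) (w : V), w ∈ connSubgroupM A e (pow_pos hp.pos k) hR he_mul hV →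
      (∀ τ ∈ A.inertiaSubgroupIn ℚ, act τ w = w) → p ^ j • w = 0 → w = 0 := by
    intro j
    induction j with
    | zero =>
      intro w _ _ h0
      rwa [pow_zero, one_smul] at h0
    | succ j ih =>
      intro w hw hfix h0
      refine ih w hw hfix ?_
      have hw' : p ^ j • w ∈ connSubgroupM A e (pow_pos hp.pos k) hR he_mul hV :=
        AddSubgroup.nsmul_mem _ hw _
      refine eq_zero_of_cong_of_fixed_of_smul A e act hp hp3 hA hR hσR he_mul he_equiv
        hw' ?_ ?_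
      · rw [← mul_nsmul', ← pow_succ']
        exact h0
      · intro τ hτ
        rw [act_nsmul_of_equiv e act hσR he_mul he_equiv, hfix τ hτ]
  exact key k w hw hfix (hV w)

/-- `W` is stable under the decomposition group of `A`. -/
theorem act_mem_connSubgroupM_iff {m : ℕ} (hm : 0 < m)
    (hR : ∀ r : R₀, algebraMap R₀ Qb r ∈ A)
    (hσR : ∀ (σ : GQ) (r : R₀), σ (algebraMap R₀ Qb r) = algebraMap R₀ Qb r)
    (he_mul : ∀ f g, e (f * g) = e f + e g)
    (he_equiv : ∀ (σ : GQ) (f g : WithConv (H →ₐ[R₀] Qb)),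
      (∀ h, g h = σ (f h)) → e g = act σ (e f))
    (hV : ∀ u : V, m • u = 0) {σ : GQ} (hσ : σ ∈ A.decompositionSubgroup ℚ) (w : V) :
    act σ w ∈ connSubgroupM A e hm hR he_mul hV ↔ w ∈ connSubgroupM A e hm hR he_mul hV := by
  have hact : e.symm (act σ w) = galAct σ (hσR σ) (e.symm w) := by
    apply e.injective
    rw [e.apply_symm_apply,
      he_equiv σ (e.symm w) _ fun h => galAct_apply σ (hσR σ) (e.symm w) h, e.apply_symm_apply]
  have hiff : ∀ a : Qb, v (σ a) < 1 ↔ v a < 1 := by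
    intro a
    rw [← A.mem_nonunits_iff, ← A.mem_nonunits_iff]
    by_cases ha : a = 0
    · subst ha; simp
    · have hσa : σ a ≠ 0 := by simpa using ha
      rw [Fermat.Agent.S05.mem_nonunits_iff_inv_notMem ha,
        Fermat.Agent.S05.mem_nonunits_iff_inv_notMem hσa, ← map_inv₀]
      exact not_congr
        ⟨Fermat.Agent.S05.mem_of_apply_mem_of_mem_decompositionSubgroup hσ,
          Fermat.Agent.S05.apply_mem_of_mem_decompositionSubgroup hσ⟩
  rw [mem_connSubgroupM_iff, mem_connSubgroupM_iff, hact]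
  refine forall_congr' fun h => ?_
  have key : σ (e.symm w h) - algebraMap R₀ Qb (Coalgebra.counit h) =
      σ (e.symm w h - algebraMap R₀ Qb (Coalgebra.counit h)) := by rw [map_sub, hσR]
  rw [galAct_apply, key]
  exact hiff _

end Base

section Frozen

variable {p : ℕ} {H : Type} [CommRing H] [Bialgebra (GaloisRep.ratLocalizedAt p) H]
  [Module.Finite (GaloisRep.ratLocalizedAt p) H]
  {V : Type*} [AddCommGroup V]

/-- **connected points, frozen shape** (`R₀ = ℤ_(p)`), `V` killed by `p ^ k`. -/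
noncomputable def connSubgroupFrozenPk (hp : p.Prime) (k : ℕ)
    (e : WithConv (H →ₐ[GaloisRep.ratLocalizedAt p] AlgebraicClosure ℚ) ≃ V)
    (he_mul : ∀ f g : WithConv (H →ₐ[GaloisRep.ratLocalizedAt p] AlgebraicClosure ℚ),
      e (f * g) = e f + e g)
    (hV : ∀ u : V, p ^ k • u = 0)
    (A : ValuationSubring (AlgebraicClosure ℚ)) (hA : A.LiesOverPrime p) : AddSubgroup V :=
  connSubgroupM A e (pow_pos hp.pos k) (algebraMap_ratLocalizedAt_mem hp A hA) he_mul hV

theorem mem_connSubgroupFrozenPk_iff (hp : p.Prime) (k : ℕ)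
    (e : WithConv (H →ₐ[GaloisRep.ratLocalizedAt p] AlgebraicClosure ℚ) ≃ V)
    (he_mul : ∀ f g : WithConv (H →ₐ[GaloisRep.ratLocalizedAt p] AlgebraicClosure ℚ),
      e (f * g) = e f + e g)
    (hV : ∀ u : V, p ^ k • u = 0)
    (A : ValuationSubring (AlgebraicClosure ℚ)) (hA : A.LiesOverPrime p) (w : V) :
    w ∈ connSubgroupFrozenPk hp k e he_mul hV A hA ↔
      ∀ h : H, A.valuation (e.symm w h -
        algebraMap (GaloisRep.ratLocalizedAt p) (AlgebraicClosure ℚ) (Coalgebra.counit h)) < 1 :=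
  mem_connSubgroupM_iff A e _ _ he_mul hV w

theorem act_sub_mem_connSubgroupFrozenPk (hp : p.Prime) (k : ℕ) (act : GQ → V → V)
    (e : WithConv (H →ₐ[GaloisRep.ratLocalizedAt p] AlgebraicClosure ℚ) ≃ V)
    (he_mul : ∀ f g : WithConv (H →ₐ[GaloisRep.ratLocalizedAt p] AlgebraicClosure ℚ),
      e (f * g) = e f + e g)
    (he_equiv : ∀ (σ : AlgebraicClosure ℚ ≃ₐ[ℚ] AlgebraicClosure ℚ)
      (f g : WithConv (H →ₐ[GaloisRep.ratLocalizedAt p] AlgebraicClosure ℚ)),
      (∀ h : H, g h = σ (f h)) → e g = act σ (e f))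
    (hV : ∀ u : V, p ^ k • u = 0)
    (A : ValuationSubring (AlgebraicClosure ℚ)) (hA : A.LiesOverPrime p)
    {σ : GQ} (hσ : σ ∈ A.inertiaSubgroupIn ℚ) (u : V) :
    act σ u - u ∈ connSubgroupFrozenPk hp k e he_mul hV A hA :=
  act_sub_mem_connSubgroupM A e act _ _ (fun σ r => apply_algebraMap_ratLocalizedAt σ r)
    he_mul he_equiv hV hσ u

theorem eq_zero_of_mem_connSubgroupFrozenPk_of_fixed (hp : p.Prime) (hp3 : 3 ≤ p) (k : ℕ)
    (act : GQ → V → V)
    (e : WithConv (H →ₐ[GaloisRep.ratLocalizedAt p] AlgebraicClosure ℚ) ≃ V)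
    (he_mul : ∀ f g : WithConv (H →ₐ[GaloisRep.ratLocalizedAt p] AlgebraicClosure ℚ),
      e (f * g) = e f + e g)
    (he_equiv : ∀ (σ : AlgebraicClosure ℚ ≃ₐ[ℚ] AlgebraicClosure ℚ)
      (f g : WithConv (H →ₐ[GaloisRep.ratLocalizedAt p] AlgebraicClosure ℚ)),
      (∀ h : H, g h = σ (f h)) → e g = act σ (e f))
    (hV : ∀ u : V, p ^ k • u = 0)
    (A : ValuationSubring (AlgebraicClosure ℚ)) (hA : A.LiesOverPrime p)
    {w : V} (hw : w ∈ connSubgroupFrozenPk hp k e he_mul hV A hA)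
    (hfix : ∀ τ ∈ A.inertiaSubgroupIn ℚ, act τ w = w) : w = 0 :=
  eq_zero_of_mem_connSubgroupM_of_fixed A e act hp hp3 hA _
    (fun σ r => apply_algebraMap_ratLocalizedAt σ r) he_mul he_equiv hV hw hfix

theorem act_mem_connSubgroupFrozenPk_iff (hp : p.Prime) (k : ℕ) (act : GQ → V → V)
    (e : WithConv (H →ₐ[GaloisRep.ratLocalizedAt p] AlgebraicClosure ℚ) ≃ V)
    (he_mul : ∀ f g : WithConv (H →ₐ[GaloisRep.ratLocalizedAt p] AlgebraicClosure ℚ),
      e (f * g) = e f + e g)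
    (he_equiv : ∀ (σ : AlgebraicClosure ℚ ≃ₐ[ℚ] AlgebraicClosure ℚ)
      (f g : WithConv (H →ₐ[GaloisRep.ratLocalizedAt p] AlgebraicClosure ℚ)),
      (∀ h : H, g h = σ (f h)) → e g = act σ (e f))
    (hV : ∀ u : V, p ^ k • u = 0)
    (A : ValuationSubring (AlgebraicClosure ℚ)) (hA : A.LiesOverPrime p)
    {σ : GQ} (hσ : σ ∈ A.decompositionSubgroup ℚ) (w : V) :
    act σ w ∈ connSubgroupFrozenPk hp k e he_mul hV A hA ↔
      w ∈ connSubgroupFrozenPk hp k e he_mul hV A hA :=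
  act_mem_connSubgroupM_iff A e act _ _ (fun σ r => apply_algebraMap_ratLocalizedAt σ r)
    he_mul he_equiv hV hσ w

end Frozen

section IsFlatAt

/-- in a local ring with `p ∈ 𝔪`, every ideal of finite index contains a power of `p`. -/
theorem exists_pow_mem_of_finite_quotient {R : Type*} [CommRing R] [IsLocalRing R] {p : ℕ}
    (hpm : (p : R) ∈ IsLocalRing.maximalIdeal R) (I : Ideal R) [Finite (R ⧸ I)] :
    ∃ k : ℕ, (p : R) ^ k ∈ I := by
  obtain ⟨a, b, hab, h⟩ := Finite.exists_ne_map_eq_of_infinite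
    (fun n : ℕ => (Ideal.Quotient.mk I ((p : R) ^ n)))
  wlog hlt : a < b generalizing a b
  · exact this b a hab.symm h.symm (lt_of_le_of_ne (not_lt.mp hlt) hab.symm)
  obtain ⟨d, rfl⟩ := Nat.exists_eq_add_of_lt hlt
  have hmem : (p : R) ^ a * (1 - (p : R) ^ (d + 1)) ∈ I := by
    rw [← Ideal.Quotient.eq_zero_iff_mem, mul_sub, mul_one, map_sub, ← pow_add, sub_eq_zero]
    have : a + d + 1 = a + (d + 1) := by ring
    rw [← this]
    exact h
  have hunit : IsUnit (1 - (p : R) ^ (d + 1)) := by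
    have hm : (p : R) ^ (d + 1) ∈ IsLocalRing.maximalIdeal R :=
      Ideal.pow_mem_of_mem _ hpm _ (Nat.succ_pos d)
    have := IsLocalRing.isUnit_one_sub_self_of_mem_nonunits _ hm
    exact this
  refine ⟨a, ?_⟩
  have := I.mul_mem_right ((hunit.unit⁻¹ : Rˣ) : R) hmem
  rwa [mul_assoc, IsUnit.mul_val_inv, mul_one] at this

/-- **Connected–étale package for a flat deformation at a level `I ∋ p ^ k`** (`p ≥ 3`):
there is a subgroup `W ⊂ V/IV` (the connected points) which is stable under the decomposition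
group `D_A`, contains `(σ - 1)u` for every `σ ∈ I_A`, and has no nonzero `I_A`-fixed element. -/
theorem exists_connSubgroup_of_isFlatAt_pow {R : Type} [CommRing R] [IsLocalRing R]
    (ρ : GaloisRepAdic R) {p : ℕ} (hp : p.Prime) (hp3 : 3 ≤ p) (hflat : ρ.IsFlatAt p)
    (I : Ideal R) (hI : Finite (R ⧸ I)) (k : ℕ) (hpI : (p : R) ^ k ∈ I)
    (A : ValuationSubring (AlgebraicClosure ℚ)) (hA : A.LiesOverPrime p) :
    ∃ W : AddSubgroup (ρ.V ⧸ (I • (⊤ : Submodule R ρ.V))),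
      (∀ σ ∈ A.decompositionSubgroup ℚ, ∀ w, ρ.levelAction I σ w ∈ W ↔ w ∈ W) ∧
      (∀ σ ∈ A.inertiaSubgroupIn ℚ, ∀ u, ρ.levelAction I σ u - u ∈ W) ∧
      (∀ w ∈ W, (∀ τ ∈ A.inertiaSubgroupIn ℚ, ρ.levelAction I τ w = w) → w = 0) := by
  obtain ⟨_, hH⟩ := hflat
  obtain ⟨H, _, _, hfin, _, _, e, he_mul, he_equiv⟩ := hH I hI
  have := hfin
  have hV : ∀ u : ρ.V ⧸ (I • (⊤ : Submodule R ρ.V)), p ^ k • u = 0 := by
    intro u
    induction u using Submodule.Quotient.induction_on with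
    | H x =>
      rw [← Submodule.Quotient.mk_smul, Submodule.Quotient.mk_eq_zero,
        ← Nat.cast_smul_eq_nsmul R, Nat.cast_pow]
      exact Submodule.smul_mem_smul hpI Submodule.mem_top
  refine ⟨connSubgroupFrozenPk hp k e he_mul hV A hA, ?_, ?_, ?_⟩
  · intro σ hσ w
    exact act_mem_connSubgroupFrozenPk_iff hp k (fun σ u => ρ.levelAction I σ u) e he_mul
      he_equiv hV A hA hσ w
  · intro σ hσ u
    exact act_sub_mem_connSubgroupFrozenPk hp k (fun σ u => ρ.levelAction I σ u) e he_mul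
      he_equiv hV A hA hσ u
  · intro w hw hfix
    exact eq_zero_of_mem_connSubgroupFrozenPk_of_fixed hp hp3 k
      (fun σ u => ρ.levelAction I σ u) e he_mul he_equiv hV A hA hw hfix

/-- the same at EVERY level of finite index, when `p` lies in the maximal ideal of `R`. -/
theorem exists_connSubgroup_of_isFlatAt_of_mem_maximalIdeal {R : Type} [CommRing R]
    [IsLocalRing R] (ρ : GaloisRepAdic R) {p : ℕ} (hp : p.Prime) (hp3 : 3 ≤ p)
    (hpm : (p : R) ∈ IsLocalRing.maximalIdeal R) (hflat : ρ.IsFlatAt p)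
    (I : Ideal R) (hI : Finite (R ⧸ I))
    (A : ValuationSubring (AlgebraicClosure ℚ)) (hA : A.LiesOverPrime p) :
    ∃ W : AddSubgroup (ρ.V ⧸ (I • (⊤ : Submodule R ρ.V))),
      (∀ σ ∈ A.decompositionSubgroup ℚ, ∀ w, ρ.levelAction I σ w ∈ W ↔ w ∈ W) ∧
      (∀ σ ∈ A.inertiaSubgroupIn ℚ, ∀ u, ρ.levelAction I σ u - u ∈ W) ∧
      (∀ w ∈ W, (∀ τ ∈ A.inertiaSubgroupIn ℚ, ρ.levelAction I τ w = w) → w = 0) := by
  obtain ⟨k, hk⟩ := exists_pow_mem_of_finite_quotient hpm I
  exact exists_connSubgroup_of_isFlatAt_pow ρ hp hp3 hflat I hI k hk A hA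

end IsFlatAt

end Fermat.Agent.GS.Old.AugConnPk
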